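import Mathlib
import Fermat.Agent.LT.General.Geom.Local.Places
import Fermat.Agent.LT.Descent.Geom.Local.InertField

set_option autoImplicit false

/-!
# The completion of `F` at a good place fixed by the Galois group of `F/K`, general input
-/

noncomputable section

open NumberField IsDedekindDomain WithZero Filter Topology
open scoped MatrixGroups

namespace FermatAgent.LTG

open FermatAgent.RT (mem_centre_iff intCast_mem_centre_iff)
open FermatAgent.Duality.Global (toZB Over exists_place)
open FermatAgent.LT (galInt galPlace galPlace_asIdeal galInt_coe loc valued_loc galLoc galLoc_coe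
  continuous_galLoc valuation_gal intValuation_galInt placeCast placeCast_loc continuous_placeCast
  valued_eq_of_dense valued_loc_int natCard_residue_adic mem_maximalIdeal_iff_valued)

local notation "Qb" => AlgebraicClosure ℚ
local notation "GQ" => AlgebraicClosure ℚ ≃ₐ[ℚ] AlgebraicClosure ℚ

/-! ### The place -/

variable {S : Setup} {σ : S.F ≃+* S.F} (hσ : S.IsGalGen σ) {w : HeightOneSpectrum (𝓞 S.F)}
  (hfix : galPlace σ w = w)

include hfix in
theorem gal_mem_iff (x : 𝓞 S.F) : galInt σ x ∈ w.asIdeal ↔ x ∈ w.asIdeal := by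
  conv_rhs => rw [← hfix, galPlace_asIdeal, Ideal.mem_comap]

include hσ in
/-- At a place not dividing `3m`, `σ` is not in the inertia group. -/
theorem exists_gal_moves (hw : (S.m : 𝓞 S.F) ∉ w.asIdeal) :
    ∃ x : 𝓞 S.F, galInt σ x - x ∉ w.asIdeal := by
  by_contra! hall
  obtain ⟨A, hA⟩ := exists_place w
  obtain ⟨q, hq, hqA⟩ := hA.1
  have hqm : ¬q ∣ S.m := fun hd => hw (by
    rw [← hA.2, Ideal.mem_comap, map_natCast, ← Int.cast_natCast,
      intCast_mem_centre_iff hq hqA, Int.natCast_dvd_natCast]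
    exact hd)
  obtain ⟨τ, hτ, hτσ⟩ := ExtVanish.exists_inertia_lift_at S.F.val hq hqA w.asIdeal
    (fun x => (hA.mem_iff x).trans A.mem_nonunits_iff.symm)
    (AlgEquiv.ofRingEquiv (f := σ) fun r => map_ratCast σ r) fun x => by
      show _ ∈ w.asIdeal
      convert hall x using 2
      exact RingOfIntegers.ext rfl
  refine hσ.1 (RingEquiv.ext fun x => Subtype.ext ?_)
  have h1 : τ (x : Qb) = x :=
    S.apply_eq_self_of_q8 (by rw [S.unramified q hq hqm A hqA τ hτ]; exact one_mem _) x.2
  exact (hτσ x).symm.trans h1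


include hσ hfix in
/-- A uniformizer at an unramified fixed place can be chosen in `K`. -/
theorem exists_fixed_val_one (hw : (S.m : 𝓞 S.F) ∉ w.asIdeal) :
    ∃ y : 𝓞 S.K, w.intValuation (S.inclInt y) = exp (-1 : ℤ) := by
  obtain ⟨x, hx⟩ := exists_gal_moves hσ hw
  obtain ⟨p, hp⟩ := w.intValuation_exists_uniformizer
  have hmem : ∀ z : 𝓞 S.F, w.intValuation z ≤ exp (-((2 : ℕ) : ℤ)) ↔ z ∈ w.asIdeal ^ 2 :=
    fun z => w.intValuation_le_pow_iff_mem z 2
  have hval : ∀ z : 𝓞 S.F, w.intValuation (galInt σ z) = w.intValuation z := fun z => by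
    rw [intValuation_galInt, hfix]
  have hσ3' : ∀ z : 𝓞 S.F, galInt σ (galInt σ (galInt σ z)) = z :=
    fun z => galInt_cube hσ z
  set T : 𝓞 S.F → 𝓞 S.F := fun z => z + galInt σ z + galInt σ (galInt σ z)
  have hTmem : ∀ θ, T (θ * p) ∈ w.asIdeal := by
    intro θ
    have h1 : θ * p ∈ w.asIdeal := Ideal.mul_mem_left _ _ (by
      rw [← w.intValuation_lt_one_iff_mem, hp, ← exp_zero, exp_lt_exp]; norm_num)
    exact add_mem (add_mem h1 ((gal_mem_iff hfix _).mpr h1))
      ((gal_mem_iff hfix _).mpr ((gal_mem_iff hfix _).mpr h1))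
  obtain ⟨θ, hθ⟩ : ∃ θ, T (θ * p) ∉ w.asIdeal ^ 2 := by
    by_contra! hcon
    set a := galInt σ x
    set b := galInt σ (galInt σ x)
    have h1 : (a - x) * (a - b) * galInt σ p ∈ w.asIdeal ^ 2 := by
      have e : (a - x) * (a - b) * galInt σ p =
          T (x ^ 2 * p) - (x + b) * T (x * p) + x * b * T (1 * p) := by
        simp only [T, map_mul, map_pow, one_mul, a, b]
        ring
      rw [e]
      exact add_mem (sub_mem (hcon _) (Ideal.mul_mem_left _ _ (hcon _)))
        (Ideal.mul_mem_left _ _ (hcon _))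
    have h2 : ∀ z, z ∉ w.asIdeal → w.intValuation z = 1 := fun z hz =>
      HeightOneSpectrum.intValuation_eq_one_iff.mpr hz
    have h3 : a - b ∉ w.asIdeal := by
      rw [← gal_mem_iff hfix, map_sub, show galInt σ b = x from hσ3' x, ← gal_mem_iff hfix, map_sub,
        show galInt σ (galInt σ a) = x from hσ3' x]
      simpa [a] using fun h => hx (by simpa using neg_mem h)
    rw [← hmem, map_mul, map_mul, h2 _ hx, h2 _ h3, one_mul, one_mul, hval, hp, exp_le_exp] at h1
    norm_num at h1
  obtain ⟨y, hy⟩ := hσ.exists_of_fixed (x := ((T (θ * p) : 𝓞 S.F) : S.F)) (by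
    rw [← galInt_coe]
    congr 1
    simp only [T, map_add, hσ3']
    ring)
  have hyint : IsIntegral ℤ y := (isIntegral_algHom_iff (S.inclKF.restrictScalars ℤ)
    S.inclKF.injective).mp (by
      show IsIntegral ℤ (S.inclKF y)
      rw [hy]; exact RingOfIntegers.isIntegral_coe _)
  refine ⟨⟨y, hyint⟩, ?_⟩
  rw [show S.inclInt ⟨y, hyint⟩ = T (θ * p) from RingOfIntegers.ext hy]
  have h1 := (w.intValuation_lt_one_iff_mem _).mpr (hTmem θ)
  have h2 : ¬w.intValuation (T (θ * p)) ≤ exp (-((2 : ℕ) : ℤ)) := fun h => hθ ((hmem _).mp h)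
  have h0 : w.intValuation (T (θ * p)) ≠ 0 := fun h => h2 (h ▸ bot_le)
  rw [← exp_log h0, ← exp_zero, exp_lt_exp] at h1
  rw [← exp_log h0, exp_le_exp] at h2
  rw [← exp_log h0, exp_inj]
  push_cast at h2
  omega

include hσ hfix in
theorem ramAt_inert (hw : (S.m : 𝓞 S.F) ∉ w.asIdeal) : S.ramAt w = 1 := by
  obtain ⟨y, hy⟩ := exists_fixed_val_one hσ hfix hw
  exact Nat.dvd_one.mp (ramAt_dvd_of_val (y := y) one_pos (by exact_mod_cast hy))

include hσ hfix in
theorem valued_inclOver_inert {v : HeightOneSpectrum (𝓞 S.K)} (hv : S.underK w = v)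
    (hw : (S.m : 𝓞 S.F) ∉ w.asIdeal) (x : v.adicCompletion S.K) :
    Valued.v (S.inclOver ⟨w, hv⟩ x) = Valued.v x := by
  rw [valued_inclOver_pow, ramAt_inert hσ hfix hw, pow_one]

/-! ### The automorphism of the completion -/

/-- The endomorphism of the completion induced by `σ` at a fixed place. -/
def fixLocHom : w.adicCompletion S.F →+* w.adicCompletion S.F :=
  (galLoc σ w).comp (placeCast hfix.symm)

theorem fixLocHom_loc (x : S.F) : fixLocHom hfix (loc w x) = loc w (σ x) := by
  rw [fixLocHom, RingHom.comp_apply, placeCast_loc, galLoc_coe]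

theorem continuous_fixLocHom : Continuous (fixLocHom hfix) :=
  (continuous_galLoc σ w).comp (continuous_placeCast _)

theorem valued_fixLocHom (x : w.adicCompletion S.F) :
    Valued.v (fixLocHom hfix x) = Valued.v x :=
  valued_eq_of_dense _ (continuous_fixLocHom hfix) (fun z => by
    rw [fixLocHom_loc, valued_loc, valued_loc, valuation_gal, hfix]) x

include hσ in
theorem fixLocHom_cube (x : w.adicCompletion S.F) :
    fixLocHom hfix (fixLocHom hfix (fixLocHom hfix x)) = x := by
  have h : (fun y => fixLocHom hfix (fixLocHom hfix (fixLocHom hfix y))) = id := by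
    refine DenseRange.equalizer (HeightOneSpectrum.denseRange_algebraMap (K := S.F) w)
      (((continuous_fixLocHom hfix).comp (continuous_fixLocHom hfix)).comp
        (continuous_fixLocHom hfix)) continuous_id (funext fun z => ?_)
    show fixLocHom hfix (fixLocHom hfix (fixLocHom hfix (loc w z))) = loc w z
    rw [fixLocHom_loc, fixLocHom_loc, fixLocHom_loc, hσ.cube]
  exact congrFun h x

/-- The automorphism of the completion. -/
def fixLoc : w.adicCompletion S.F ≃+* w.adicCompletion S.F :=
  RingEquiv.ofRingHom (fixLocHom hfix) ((fixLocHom hfix).comp (fixLocHom hfix))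
    (RingHom.ext (fixLocHom_cube hσ hfix)) (RingHom.ext (fixLocHom_cube hσ hfix))

theorem fixLoc_apply (x : w.adicCompletion S.F) : fixLoc hσ hfix x = fixLocHom hfix x := rfl

/-- The automorphism of the integers of the completion. -/
def fixInt : w.adicCompletionIntegers S.F ≃+* w.adicCompletionIntegers S.F where
  toFun x := ⟨fixLoc hσ hfix x, (valued_fixLocHom hfix _).trans_le x.2⟩
  invFun x := ⟨(fixLoc hσ hfix).symm x, by
    show Valued.v _ ≤ (1 : ℤᵐ⁰)
    refine le_of_eq_of_le ?_ (show Valued.v (x : w.adicCompletion S.F) ≤ 1 from x.2)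
    rw [← valued_fixLocHom hfix, ← fixLoc_apply hσ hfix, RingEquiv.apply_symm_apply]⟩
  left_inv x := Subtype.ext ((fixLoc hσ hfix).symm_apply_apply _)
  right_inv x := Subtype.ext ((fixLoc hσ hfix).apply_symm_apply _)
  map_mul' _ _ := Subtype.ext (map_mul _ _ _)
  map_add' _ _ := Subtype.ext (map_add _ _ _)

theorem fixLoc_algebraMap (x : w.adicCompletionIntegers S.F) :
    fixLoc hσ hfix (algebraMap _ (w.adicCompletion S.F) x) =
      algebraMap _ (w.adicCompletion S.F) (fixInt hσ hfix x) := rfl

include hσ in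
theorem isCubic_fixInt (hw : (S.m : 𝓞 S.F) ∉ w.asIdeal) :
    LT.Inert.IsCubic (fixInt hσ hfix) := by
  refine ⟨fun x => Subtype.ext (fixLocHom_cube hσ hfix _), ?_⟩
  obtain ⟨x, hx⟩ := exists_gal_moves hσ hw
  refine ⟨⟨loc w (x : S.F), by
    rw [HeightOneSpectrum.mem_adicCompletionIntegers, valued_loc_int]
    exact w.intValuation_le_one x⟩, ?_⟩
  rw [HeightOneSpectrum.adicCompletionIntegers.isUnit_iff_valued_eq_one]
  show Valued.v (fixLocHom hfix (loc w (x : S.F)) - loc w (x : S.F)) = 1
  rw [fixLocHom_loc, ← map_sub, ← galInt_coe, RingOfIntegers.coe_eq_algebraMap, ← map_sub,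
    ← RingOfIntegers.coe_eq_algebraMap, valued_loc_int]
  exact HeightOneSpectrum.intValuation_eq_one_iff.mpr hx

include hσ in
theorem fixLoc_inclOver {v : HeightOneSpectrum (𝓞 S.K)} (hv : S.underK w = v)
    (x : v.adicCompletion S.K) :
    fixLoc hσ hfix (S.inclOver ⟨w, hv⟩ x) = S.inclOver ⟨w, hv⟩ x := by
  have h : (fun y => fixLocHom hfix (S.inclOver ⟨w, hv⟩ y)) = fun y => S.inclOver ⟨w, hv⟩ y := by
    refine DenseRange.equalizer (HeightOneSpectrum.denseRange_algebraMap (K := S.K) v)
      ((continuous_fixLocHom hfix).comp (S.continuous_inclOver _)) (S.continuous_inclOver _)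
      (funext fun z => ?_)
    show fixLocHom hfix (S.inclOver ⟨w, hv⟩ (loc v z)) = S.inclOver ⟨w, hv⟩ (loc v z)
    rw [S.inclOver_loc, fixLocHom_loc, hσ.2]
  exact congrFun h x

include hσ in
/-- The fixed elements come from the completion of `K`. -/
theorem exists_inclOver_eq {v : HeightOneSpectrum (𝓞 S.K)} (hv : S.underK w = v)
    (hw : (S.m : 𝓞 S.F) ∉ w.asIdeal) {x : w.adicCompletion S.F}
    (hx : fixLoc hσ hfix x = x) : ∃ y, S.inclOver ⟨w, hv⟩ y = x := by
  set f : v.adicCompletion S.K →+* w.adicCompletion S.F := S.inclOver ⟨w, hv⟩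
  have hv' : ∀ y, Valued.v (f y) = Valued.v y := valued_inclOver_inert hσ hfix hv hw
  -- the range is closed
  have hclosed : IsClosed (Set.range f) := by
    have hcomap : Filter.comap f (𝓝 0) = 𝓝 0 := by
      refine le_antisymm ?_ ((map_zero f ▸ (S.continuous_inclOver _).tendsto 0).le_comap)
      intro s hs
      rw [Valued.mem_nhds_zero] at hs
      obtain ⟨γ, hγ⟩ := hs
      obtain ⟨a, b, ha, hb, hab⟩ := Valuation.restrict_exists_div_eq
        (Valued.v (R := v.adicCompletion S.K)) γ
      have hne : Valued.v.restrict (f (a / b)) ≠ 0 := by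
        rw [ne_eq, Valuation.restrict_eq_zero_iff, hv', map_div₀]
        exact div_ne_zero ha.ne' hb.ne'
      refine mem_comap.mpr ⟨_, Valued.mem_nhds_zero.mpr ⟨Units.mk0 _ hne, subset_rfl⟩,
        fun y hy => hγ ?_⟩
      simp only [Set.mem_preimage, Set.mem_ofPred_eq, Units.val_mk0, Valuation.restrict_lt_iff,
        hv'] at hy
      rw [Set.mem_ofPred_eq, ← hab, ← map_div₀, Valuation.restrict_lt_iff]
      exact hy
    have hind : IsUniformInducing f := ⟨by
      rw [uniformity_eq_comap_nhds_zero (v.adicCompletion S.K),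
        uniformity_eq_comap_nhds_zero (w.adicCompletion S.F), ← hcomap, comap_comap, comap_comap]
      congr 1
      funext p
      simp [Function.comp_apply]⟩
    exact hind.isComplete_range.isClosed
  -- averaging
  let g : w.adicCompletion S.F → w.adicCompletion S.F := fun y =>
    (y + fixLocHom hfix y + fixLocHom hfix (fixLocHom hfix y)) / 3
  have hgc : Continuous g :=
    ((continuous_id.add (continuous_fixLocHom hfix)).add
      ((continuous_fixLocHom hfix).comp (continuous_fixLocHom hfix))).div_const _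
  have hrange : Set.range (loc w : S.F → w.adicCompletion S.F) ⊆ g ⁻¹' Set.range f := by
    rintro _ ⟨z, rfl⟩
    obtain ⟨y, hy⟩ := hσ.exists_of_fixed (x := (z + σ z + σ (σ z)) / 3) (by
      rw [map_div₀, map_add, map_add, map_ofNat, hσ.cube]; ring)
    refine ⟨loc v y, ?_⟩
    show f (loc v y) = g (loc w z)
    rw [show f (loc v y) = loc w (S.inclKF y) from S.inclOver_loc _ y, hy]
    simp only [g, fixLocHom_loc, map_div₀, map_add, map_ofNat]
  have hmem : x ∈ g ⁻¹' Set.range f :=
    (closure_minimal hrange (hclosed.preimage hgc))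
      (HeightOneSpectrum.denseRange_algebraMap (K := S.F) w x)
  have h3 : (3 : w.adicCompletion S.F) ≠ 0 := by
    rw [← map_ofNat (loc w) 3]; simp
  have hgx : g x = x := by
    rw [fixLoc_apply] at hx
    simp only [g, hx]
    field_simp
    ring
  obtain ⟨y, hy⟩ := hmem
  exact ⟨y, hy.trans hgx⟩

include hσ in
/-- The fixed residue classes are those of `K`. -/
theorem natCard_resFixed {v : HeightOneSpectrum (𝓞 S.K)} (hv : S.underK w = v)
    (hw : (S.m : 𝓞 S.F) ∉ w.asIdeal) :
    Nat.card (LT.Inert.resFixed (fixInt hσ hfix)) = Ideal.absNorm v.asIdeal := by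
  set O := w.adicCompletionIntegers S.F
  set f : v.adicCompletion S.K →+* w.adicCompletion S.F := S.inclOver ⟨w, hv⟩
  have hv' : ∀ y, Valued.v (f y) = Valued.v y := valued_inclOver_inert hσ hfix hv hw
  let ι : v.adicCompletionIntegers S.K →+* O :=
    (f.comp (v.adicCompletionIntegers S.K).subtype).codRestrict O.toSubring
      fun x => (hv' _).trans_le x.2
  have hloc : IsLocalHom ι := ⟨fun a ha => by
    rw [HeightOneSpectrum.adicCompletionIntegers.isUnit_iff_valued_eq_one] at ha ⊢
    exact (hv' _).symm.trans ha⟩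
  let φ := IsLocalRing.ResidueField.map ι
  have hφ : ∀ z, LT.Inert.resAut (fixInt hσ hfix) (φ z) = φ z := by
    intro z
    obtain ⟨a, rfl⟩ := IsLocalRing.residue_surjective z
    show LT.Inert.resAut _ (IsLocalRing.residue O (ι a)) = IsLocalRing.residue O (ι a)
    rw [LT.Inert.resAut_residue]
    exact congrArg _ (Subtype.ext (fixLoc_inclOver hσ hfix hv a))
  rw [← natCard_residue_adic v]
  refine (Nat.card_eq_of_bijective (fun z => (⟨φ z, hφ z⟩ : LT.Inert.resFixed (fixInt hσ hfix)))
    ⟨fun a b h => φ.injective (congrArg Subtype.val h), ?_⟩).symm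
  rintro ⟨z, hz⟩
  obtain ⟨a, rfl⟩ := IsLocalRing.residue_surjective z
  have hcub := isCubic_fixInt hσ hfix hw
  obtain ⟨b, hb, hab⟩ := LT.Inert.exists_fixed_sub_mem hcub
    (J := IsLocalRing.maximalIdeal O) (fun y hy => by
      rw [mem_maximalIdeal_iff_valued] at hy ⊢
      exact (valued_fixLocHom hfix _).trans_lt hy) (by
      rw [← IsLocalRing.residue_eq_zero_iff, map_sub, ← LT.Inert.resAut_residue, sub_eq_zero]
      exact hz)
  obtain ⟨y, hy⟩ := exists_inclOver_eq hσ hfix hv hw (congrArg Subtype.val hb)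
  refine ⟨IsLocalRing.residue _ ⟨y, (hv' y).symm.trans_le (hy ▸ b.2)⟩, Subtype.ext ?_⟩
  show IsLocalRing.residue O _ = IsLocalRing.residue O a
  rw [← sub_eq_zero, ← map_sub, IsLocalRing.residue_eq_zero_iff]
  convert hab using 1
  exact congrArg (· - a) (Subtype.ext hy)

end FermatAgent.LTG

end
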