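import Mathlib
import Fermat.Agent.LT.General.Geom.LocalSetup
import Fermat.Agent.LT.Descent.Geom.Local.Torus

set_option autoImplicit false

/-!
# The centraliser of a regular element at a place, its bounded part and its orbits
-/

noncomputable section

open NumberField IsDedekindDomain WithZero Filter
open scoped MatrixGroups

namespace FermatAgent.LTG

open FermatAgent.LT (GLv LCos loc locMat locLevel discAt BddAt BddMod exists_bddAt
  exists_smul_of_bddMod bddMod_of_mem_locLevel finite_bddMod_image bddMod_of_commute_unit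
  exists_eq_add_smul_of_commute trace_mul_quad bddAt_conj_of_bddMod exists_centralizer_mul_bdd)



variable {L : Type*} [Field L] [NumberField L] {t : GL (Fin 2) L} {u : HeightOneSpectrum (𝓞 L)}
  {𝔫 : Ideal (𝓞 L)}

local notation "M₂u" => Matrix (Fin 2) (Fin 2) (HeightOneSpectrum.adicCompletion L u)

theorem locMat_trace (g : GL (Fin 2) L) :
    (locMat u g : M₂u).trace = loc u (g : Matrix (Fin 2) (Fin 2) L).trace :=
  (AddMonoidHom.map_trace (loc u).toAddMonoidHom _).symm

theorem locMat_det (g : GL (Fin 2) L) :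
    (locMat u g : M₂u).det = loc u (g : Matrix (Fin 2) (Fin 2) L).det :=
  ((loc u).map_det _).symm

theorem mem_torusAt {g : GLv u} : g ∈ torusAt u t ↔ g * locMat u t = locMat u t * g :=
  Subgroup.mem_centralizer_singleton_iff

theorem discAt_locMat :
    discAt (locMat u t) = loc u ((t : Matrix (Fin 2) (Fin 2) L).trace ^ 2 -
      4 * (t : Matrix (Fin 2) (Fin 2) L).det) := by
  rw [discAt, locMat_trace, locMat_det, map_sub, map_pow, map_mul, map_ofNat]

variable (ht : (t : Matrix (Fin 2) (Fin 2) L).trace ^ 2 ≠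
  4 * (t : Matrix (Fin 2) (Fin 2) L).det)
include ht

theorem discAt_ne_zero : discAt (locMat u t) ≠ 0 := by
  rw [discAt_locMat, map_ne_zero]
  exact sub_ne_zero.mpr ht

theorem exists_bound_locMat : ∃ N D : ℤ, 0 ≤ N ∧ 0 ≤ D ∧ BddAt N (locMat u t) ∧
    exp (-D) ≤ Valued.v (discAt (locMat u t)) := by
  obtain ⟨N, hN⟩ := exists_bddAt (locMat u t)
  set d := log (Valued.v (discAt (locMat u t)))
  have hd : Valued.v (discAt (locMat u t)) = exp d :=
    (exp_log ((Valuation.ne_zero_iff _).mpr (discAt_ne_zero ht))).symm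
  exact ⟨max N 0, max (-d) 0, le_max_right _ _, le_max_right _ _, hN.mono (le_max_left _ _),
    by rw [hd, exp_le_exp]; omega⟩

theorem exists_eq_of_mem_torusAt {g : GLv u} (hg : g ∈ torusAt u t) :
    ∃ a b : u.adicCompletion L, (g : M₂u) = a • 1 + b • (locMat u t : M₂u) :=
  exists_eq_add_smul_of_commute (sub_ne_zero.mp (discAt_ne_zero ht))
    (congrArg Units.val (mem_torusAt.mp hg))

theorem torusAt_comm' : ∀ a ∈ torusAt u t, ∀ b ∈ torusAt u t, a * b = b * a := by
  intro a ha b hb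
  obtain ⟨p, q, hp⟩ := exists_eq_of_mem_torusAt ht ha
  obtain ⟨p', q', hp'⟩ := exists_eq_of_mem_torusAt ht hb
  refine Units.ext ?_
  rw [Units.val_mul, Units.val_mul, hp, hp']
  simp only [add_mul, mul_add, Matrix.smul_mul, Matrix.mul_smul, one_mul, mul_one, smul_smul,
    mul_comm q' q, mul_comm p' p, mul_comm p' q, mul_comm q' p]
  abel

theorem torusU_le' : torusU u t ≤ torusAt u t ∧ ∀ g ∈ torusU u t, IsUnitElt u g := by
  refine ⟨(Subgroup.closure_le _).mpr fun g hg => hg.1, fun g hg => ?_⟩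
  suffices g ∈ torusAt u t ∧ IsUnitElt u g from this.2
  induction hg using Subgroup.closure_induction with
  | mem x hx => exact hx
  | one =>
    refine ⟨one_mem _, 1, by simp, ?_⟩
    rw [Units.val_one, Matrix.trace_one, one_mul]
    exact natCast_mem (u.adicCompletionIntegers L) 2
  | mul x y _ _ hx hy =>
    refine ⟨mul_mem hx.1 hy.1, ?_⟩
    obtain ⟨c, hcd, hct⟩ := hx.2
    obtain ⟨c', hcd', hct'⟩ := hy.2
    obtain ⟨a, b, hx'⟩ := exists_eq_of_mem_torusAt ht hx.1
    obtain ⟨a', b', hy'⟩ := exists_eq_of_mem_torusAt ht hy.1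
    have hid := trace_mul_quad (locMat u t : M₂u) a b a' b'
    rw [← hx', ← hy', ← Units.val_mul] at hid
    refine ⟨c * c', ?_, ?_⟩
    · rw [Units.val_mul, Matrix.det_mul, show (c * c') ^ 2 * ((x : M₂u).det * (y : M₂u).det) =
        c ^ 2 * (x : M₂u).det * (c' ^ 2 * (y : M₂u).det) by ring, map_mul, hcd, hcd', mul_one]
    · set z := c * c' * ((x * y : GLv u) : M₂u).trace
      set T₁ := c * (x : M₂u).trace
      set T₂ := c' * (y : M₂u).trace
      set D₁ := c ^ 2 * (x : M₂u).det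
      set D₂ := c' ^ 2 * (y : M₂u).det
      have e : z * z = z * (T₁ * T₂) - (T₁ * T₁ * D₂ + T₂ * T₂ * D₁ - 4 * (D₁ * D₂)) := by
        simp only [z, T₁, T₂, D₁, D₂]
        linear_combination (c * c') ^ 2 * hid
      have h12 : Valued.v (T₁ * T₂) ≤ 1 := by rw [map_mul]; exact mul_le_one' hct hct'
      have h3 : Valued.v (T₁ * T₁ * D₂ + T₂ * T₂ * D₁ - 4 * (D₁ * D₂)) ≤ 1 := by
        refine (Valuation.map_sub _ _ _).trans (max_le ((Valuation.map_add _ _ _).trans
          (max_le ?_ ?_)) ?_)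
        · rw [map_mul, map_mul]; exact mul_le_one' (mul_le_one' hct hct) hcd'.le
        · rw [map_mul, map_mul]; exact mul_le_one' (mul_le_one' hct' hct') hcd.le
        · rw [map_mul, map_mul]
          exact mul_le_one' (natCast_mem (u.adicCompletionIntegers L) 4)
            (mul_le_one' hcd.le hcd'.le)
      by_contra hlt
      push Not at hlt
      have h4 : Valued.v (z * z) ≤ Valued.v z := by
        rw [e]
        refine (Valuation.map_sub _ _ _).trans (max_le ?_ (h3.trans hlt.le))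
        rw [map_mul]; exact mul_le_of_le_one_right' h12
      rw [map_mul] at h4
      exact absurd h4 (not_le.mpr (lt_mul_of_one_lt_right (zero_lt_one.trans hlt) hlt))
  | inv x _ hx =>
    refine ⟨inv_mem hx.1, ?_⟩
    obtain ⟨c, hcd, hct⟩ := hx.2
    have hd0 : (x : M₂u).det ≠ 0 := x.det_ne_zero
    refine ⟨c * (x : M₂u).det, ?_, ?_⟩
    · rw [Matrix.coe_units_inv, Matrix.det_nonsing_inv, Ring.inverse_eq_inv,
        show (c * (x : M₂u).det) ^ 2 * ((x : M₂u).det)⁻¹ = c ^ 2 * (x : M₂u).det by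
          field_simp, hcd]
    · rw [Matrix.coe_units_inv, Matrix.inv_def, Matrix.trace_smul, Matrix.adjugate_fin_two,
        Matrix.trace_fin_two_of, smul_eq_mul, Ring.inverse_eq_inv,
        show c * (x : M₂u).det * (((x : M₂u).det)⁻¹ * ((x : M₂u) 1 1 + (x : M₂u) 0 0)) =
          c * (x : M₂u).trace by rw [Matrix.trace_fin_two]; field_simp; ring]
      exact hct

theorem exists_bddMod_torusU : ∃ N, ∀ g ∈ torusU u t, BddMod N g := by
  obtain ⟨N, D, hN, hD, hT, hd⟩ := exists_bound_locMat (u := u) ht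
  refine ⟨N + D, fun g hg => ?_⟩
  obtain ⟨c, hcd, hct⟩ := (torusU_le' ht).2 g hg
  exact bddMod_of_commute_unit hN hD hT hd (mem_torusAt.mp ((torusU_le' ht).1 hg)) hcd hct

omit ht

theorem isUnitElt_of_conj_level {g y : GLv u} (h : y⁻¹ * g * y ∈ locLevel 𝔫 u) :
    IsUnitElt u g := by
  obtain ⟨c, -, h1, h2⟩ := exists_smul_of_bddMod (bddMod_of_mem_locLevel h)
  rw [neg_zero, exp_zero] at h2
  rw [exp_zero] at h1
  have hd : ((y⁻¹ * g * y : GLv u) : M₂u).det = (g : M₂u).det := by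
    rw [Units.val_mul, Units.val_mul]; exact Matrix.det_units_conj' y _
  have htr : ((y⁻¹ * g * y : GLv u) : M₂u).trace = (g : M₂u).trace := by
    rw [Units.val_mul, Units.val_mul]; exact Matrix.trace_units_conj' y _
  refine ⟨c, le_antisymm ?_ (hd ▸ h2), ?_⟩
  · rw [← hd]
    generalize hP : ((y⁻¹ * g * y : GLv u) : M₂u) = P at h1
    rw [show c ^ 2 * P.det = (c * P 0 0) * (c * P 1 1) - (c * P 0 1) * (c * P 1 0)
      from by rw [Matrix.det_fin_two]; ring]
    refine (Valuation.map_sub _ _ _).trans (max_le ?_ ?_) <;>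
      · rw [map_mul]; exact mul_le_one' (h1 _ _) (h1 _ _)
  · rw [← htr, Matrix.trace_fin_two, mul_add]
    exact (Valuation.map_add _ _ _).trans (max_le (h1 _ _) (h1 _ _))

/-- Moving a coset into the bounded set: the stabiliser of a coset consists of units. -/
theorem mem_torusU_of_smul_eq {g : GLv u} (hg : g ∈ torusAt u t)
    {y : LCos 𝔫 u} (h : g • y = y) : g ∈ torusU u t := by
  obtain ⟨x, rfl⟩ := QuotientGroup.mk_surjective y
  refine Subgroup.subset_closure ⟨hg, isUnitElt_of_conj_level (𝔫 := 𝔫) (y := x) ?_⟩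
  rw [MulAction.Quotient.smul_coe, smul_eq_mul] at h
  rw [mul_assoc]
  exact QuotientGroup.eq.mp h.symm

variable (h𝔫 : 𝔫 ≠ ⊥)
include ht h𝔫

theorem finite_torusU_orbit' (y : LCos 𝔫 u) :
    ((fun g => g • y) '' (torusU u t : Set (GLv u))).Finite := by
  obtain ⟨N, hN⟩ := exists_bddMod_torusU (u := u) ht
  obtain ⟨x, rfl⟩ := QuotientGroup.mk_surjective y
  obtain ⟨M, hM⟩ := exists_bddAt x
  have hM' : BddMod M x := ⟨1, one_mem _, by rwa [one_mul]⟩
  refine (finite_bddMod_image h𝔫 (N + M) (1 : GLv u)).subset ?_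
  rintro q ⟨g, hg, rfl⟩
  exact ⟨g * x, (hN g hg).mul hM', by rw [one_mul]; rfl⟩

/-- Cosets at which `t` acts boundedly form finitely many orbits of the centraliser. -/
theorem exists_finite_orbit_reps (N : ℤ) : ∃ R : Set (LCos 𝔫 u), R.Finite ∧
    ∀ x : GLv u, BddMod N (x⁻¹ * locMat u t * x) →
      ∃ τ ∈ torusAt u t, ∃ r ∈ R, ((x : GLv u) : LCos 𝔫 u) = τ • r := by
  obtain ⟨N₁, hN₁⟩ := bddAt_conj_of_bddMod (locMat u t) N
  obtain ⟨N₀, D, hN₀, hD, hT, hd⟩ := exists_bound_locMat (u := u) ht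
  set N₂ := max N₁ N₀
  refine ⟨_, finite_bddMod_image h𝔫 (3 * (N₂ + D)) (1 : GLv u), fun x hx => ?_⟩
  obtain ⟨τ, hτ, hb⟩ := exists_centralizer_mul_bdd (le_max_of_le_right hN₀) hD
    (hT.mono (le_max_right _ _)) hd x ((hN₁ x hx).mono (le_max_left _ _))
  refine ⟨τ, mem_torusAt.mpr hτ, _, ⟨_, ⟨1, one_mem _, by rwa [one_mul]⟩, rfl⟩, ?_⟩
  rw [one_mul, MulAction.Quotient.smul_coe, smul_eq_mul, mul_inv_cancel_left]

end FermatAgent.LTG

end
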