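import Mathlib
import Fermat.Agent.LT.General.Geom.Local.Torus
import Fermat.Agent.LT.Descent.Geom.Local.ThreeSum
import Fermat.Agent.LT.Descent.Geom.SplitGeom

set_option autoImplicit false

/-!
# Representatives `n(y)` of the orbits of a diagonal torus at an unramified place
-/

noncomputable section

open NumberField IsDedekindDomain WithZero
open scoped MatrixGroups

namespace FermatAgent.LTG

open FermatAgent.LT (GLv LCos locMat loc locLevel locInt upperTri uniMat uniMat_val uniMat_mul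
  uniMat_inv exists_upper_mul_integral mem_locInt_of_entries locLevel_eq_sphSub locCongr_eq_int
  IsDiag2 partCos partFin hLoc antiGL antiGL_entries partCos_mk)
open FermatAgent.LT.Inert (IsFundSet)

variable {L : Type*} [Field L] [NumberField L] {v : HeightOneSpectrum (𝓞 L)} {𝔫 : Ideal (𝓞 L)}

local notation "Lv" => HeightOneSpectrum.adicCompletion L v
local notation "M₂v" => Matrix (Fin 2) (Fin 2) (HeightOneSpectrum.adicCompletion L v)

theorem eq_one_of_prod_eq_one {a b : ℤᵐ⁰} (ha : a ≤ 1) (hb : b ≤ 1) (h : a * b = 1) : a = 1 :=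
  le_antisymm ha (h.symm.le.trans (mul_le_of_le_one_right' hb))

theorem mem_locLevel_of_scaled (hv : ¬ 𝔫 ≤ v.asIdeal) (g : GLv v) {c : Lv} (hc : c ≠ 0)
    (h : ∀ i j, Valued.v (c * g.val i j) ≤ 1) (hd : Valued.v (c ^ 2 * g.val.det) = 1) :
    g ∈ locLevel 𝔫 v := by
  have hk : Matrix.GeneralLinearGroup.scalar (Fin 2) (Units.mk0 c hc) * g ∈ locInt v := by
    have e : (Matrix.GeneralLinearGroup.scalar (Fin 2) (Units.mk0 c hc) * g).val = c • g.val := by
      rw [Units.val_mul]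
      show Matrix.scalar (Fin 2) c * g.val = c • g.val
      rw [Matrix.scalar_apply, ← Matrix.smul_eq_diagonal_mul]
    refine mem_locInt_of_entries _ (fun i j => ?_) ?_
    · rw [e]; exact h i j
    · rw [e, Matrix.det_smul, Fintype.card_fin, hd]
  rw [show g = (Matrix.GeneralLinearGroup.scalar (Fin 2) (Units.mk0 c hc))⁻¹ *
    (Matrix.GeneralLinearGroup.scalar (Fin 2) (Units.mk0 c hc) * g) by group]
  refine mul_mem (inv_mem (Subgroup.mem_sup_right ?_)) (Subgroup.mem_sup_left ?_)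
  · rw [Matrix.GeneralLinearGroup.center_eq_range_scalar]
    exact ⟨_, rfl⟩
  · rwa [locCongr_eq_int hv]

theorem exists_scaled_of_mem_locLevel (hv : ¬ 𝔫 ≤ v.asIdeal) {g : GLv v}
    (hg : g ∈ locLevel 𝔫 v) :
    ∃ c : Lv, c ≠ 0 ∧ (∀ i j, Valued.v (c * g.val i j) ≤ 1) ∧
      Valued.v (c ^ 2 * g.val.det) = 1 := by
  rw [locLevel_eq_sphSub hv] at hg
  obtain ⟨c, hc, k, hk⟩ := hg
  refine ⟨c⁻¹, inv_ne_zero hc, fun i j => ?_, ?_⟩
  · rw [hk, Matrix.smul_apply, smul_eq_mul, inv_mul_cancel_left₀ hc]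
    exact (k.val i j).2
  · rw [hk, Matrix.det_smul, Fintype.card_fin, ← mul_assoc, ← mul_pow, inv_mul_cancel₀ hc,
      one_pow, one_mul, LT.Inert.intMat_det]
    exact HeightOneSpectrum.adicCompletionIntegers.isUnit_iff_valued_eq_one.mp
      ((Matrix.isUnit_iff_isUnit_det _).mp k.isUnit)

/-- An upper triangular element of the level at a good place. -/
theorem mem_locLevel_upper_iff (hv : ¬ 𝔫 ≤ v.asIdeal) {g : GLv v} (h0 : g.val 1 0 = 0) :
    g ∈ locLevel 𝔫 v ↔
      Valued.v (g.val 0 0) = Valued.v (g.val 1 1) ∧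
        Valued.v (g.val 0 1) ≤ Valued.v (g.val 1 1) := by
  have hdet : g.val.det = g.val 0 0 * g.val 1 1 := by
    rw [Matrix.det_fin_two, h0, mul_zero, sub_zero]
  have h11 : g.val 1 1 ≠ 0 := right_ne_zero_of_mul (hdet ▸ g.det_ne_zero)
  constructor
  · intro h
    obtain ⟨c, hc, he, hd⟩ := exists_scaled_of_mem_locLevel hv h
    rw [hdet, show c ^ 2 * (g.val 0 0 * g.val 1 1) = (c * g.val 0 0) * (c * g.val 1 1) by ring,
      map_mul] at hd
    have ha := eq_one_of_prod_eq_one (he 0 0) (he 1 1) hd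
    have hb : Valued.v (c * g.val 1 1) = 1 := by rwa [ha, one_mul] at hd
    have hcv : Valued.v c ≠ 0 := (Valuation.ne_zero_iff _).mpr hc
    refine ⟨mul_left_cancel₀ hcv ?_, le_of_mul_le_mul_left ?_ (zero_lt_iff.mpr hcv)⟩
    · rw [← map_mul, ← map_mul, ha, hb]
    · rw [← map_mul, ← map_mul, hb]
      exact he 0 1
  · rintro ⟨h1, h2⟩
    have hv11 : Valued.v (g.val 1 1) ≠ 0 := (Valuation.ne_zero_iff _).mpr h11
    refine mem_locLevel_of_scaled hv g (inv_ne_zero h11) (fun i j => ?_) ?_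
    · rw [map_mul, map_inv₀, inv_mul_le_iff₀ (zero_lt_iff.mpr hv11), mul_one]
      fin_cases i <;> fin_cases j
      · exact h1.le
      · exact h2
      · simp [h0]
      · exact le_rfl
    · rw [hdet, map_mul, map_pow, map_inv₀, map_mul, h1]
      field_simp

theorem uniMat_inv_mul_diag {d : GLv v} (hd : IsDiag2 d) (y z : Lv) :
    ((uniMat v y)⁻¹ * (d * uniMat v z)).val =
      !![d.val 0 0, d.val 0 0 * z - y * d.val 1 1; 0, d.val 1 1] := by
  rw [uniMat_inv, Units.val_mul, Units.val_mul, uniMat_val, uniMat_val]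
  ext i j
  fin_cases i <;> fin_cases j <;>
    simp only [Matrix.mul_apply, Fin.sum_univ_two, Fin.zero_eta, Fin.mk_one, Fin.isValue, hd.1,
      hd.2, Matrix.of_apply, Matrix.cons_val', Matrix.cons_val_zero, Matrix.cons_val_one,
      Matrix.empty_val', Matrix.cons_val_fin_one] <;> ring_nf

/-- When a diagonal translate of `n(z)` is `n(y)`. -/
theorem diag_smul_uniMat_eq_iff (hv : ¬ 𝔫 ≤ v.asIdeal) {d : GLv v} (hd : IsDiag2 d) (y z : Lv) :
    ((d * uniMat v z : GLv v) : LCos 𝔫 v) = (uniMat v y : LCos 𝔫 v) ↔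
      Valued.v (d.val 0 0) = Valued.v (d.val 1 1) ∧
        Valued.v (d.val 0 0 * z - y * d.val 1 1) ≤ Valued.v (d.val 1 1) := by
  rw [eq_comm, QuotientGroup.eq, mem_locLevel_upper_iff hv (by
    rw [uniMat_inv_mul_diag hd]; rfl), uniMat_inv_mul_diag hd]
  simp

theorem uniMat_eq_iff (hv : ¬ 𝔫 ≤ v.asIdeal) (y z : Lv) :
    (uniMat v z : LCos 𝔫 v) = (uniMat v y : LCos 𝔫 v) ↔ Valued.v (z - y) ≤ 1 := by
  have h := diag_smul_uniMat_eq_iff (𝔫 := 𝔫) hv (d := 1) ⟨rfl, rfl⟩ y z
  simpa using h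

/-- Every coset is a diagonal translate of some `n(y)`. -/
theorem exists_diag_uniMat (hv : ¬ 𝔫 ≤ v.asIdeal) (q : LCos 𝔫 v) :
    ∃ (d : GLv v) (y : Lv), IsDiag2 d ∧ ((d * uniMat v y : GLv v) : LCos 𝔫 v) = q := by
  obtain ⟨g, rfl⟩ := QuotientGroup.mk_surjective q
  obtain ⟨b, k, hk, rfl, hb⟩ := exists_upper_mul_integral g
  have h00 : b.val 0 0 ≠ 0 ∧ b.val 1 1 ≠ 0 := by
    have h := b.det_ne_zero
    rw [Matrix.det_fin_two, hb, mul_zero, sub_zero] at h
    exact ⟨left_ne_zero_of_mul h, right_ne_zero_of_mul h⟩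
  refine ⟨upperTri (Units.mk0 _ h00.1) 0 (Units.mk0 _ h00.2), b.val 0 1 / b.val 0 0,
    ⟨rfl, rfl⟩, ?_⟩
  have e : upperTri (Units.mk0 _ h00.1) 0 (Units.mk0 _ h00.2) *
      uniMat v (b.val 0 1 / b.val 0 0) = b := by
    refine Units.ext ?_
    rw [Units.val_mul, uniMat_val]
    ext i j
    fin_cases i <;> fin_cases j <;>
      simp [upperTri, Matrix.mul_apply, Fin.sum_univ_two, hb, mul_div_cancel₀ _ h00.1]
  rw [e, QuotientGroup.eq, inv_mul_cancel_left]
  obtain ⟨h1, h2⟩ := LT.CO.mem_locCongr_zero.mp hk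
  refine mem_locLevel_of_scaled hv k one_ne_zero (fun i j => ?_) ?_
  · rw [one_mul]; simpa using h1 i j
  · rw [one_pow, one_mul]
    refine eq_one_of_prod_eq_one ?_ ?_ (b := Valued.v (k⁻¹).val.det) (by
      rw [← map_mul, ← Matrix.det_mul, Units.mul_inv, Matrix.det_one, map_one])
    · rw [Matrix.det_fin_two]
      refine (Valuation.map_sub _ _ _).trans (max_le ?_ ?_) <;> rw [map_mul] <;>
        exact mul_le_one' (by simpa using h1 _ _) (by simpa using h1 _ _)
    · rw [Matrix.det_fin_two]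
      refine (Valuation.map_sub _ _ _).trans (max_le ?_ ?_) <;> rw [map_mul] <;>
        exact mul_le_one' (by simpa using h2 _ _) (by simpa using h2 _ _)

theorem diag_of_unitElt {g : GLv v} (hd : IsDiag2 g) (hu : IsUnitElt v g) :
    Valued.v (g.val 0 0) = Valued.v (g.val 1 1) := by
  obtain ⟨c, hc1, hc2⟩ := hu
  rw [Matrix.det_fin_two, hd.1, zero_mul, sub_zero,
    show c ^ 2 * (g.val 0 0 * g.val 1 1) = c * g.val 0 0 * (c * g.val 1 1) by ring, map_mul] at hc1
  rw [Matrix.trace_fin_two, mul_add] at hc2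
  have key : ∀ x y : Lv, Valued.v x * Valued.v y = 1 → Valued.v (x + y) ≤ 1 → Valued.v x ≤ 1 := by
    intro x y hxy hs
    by_contra hx
    rw [not_le] at hx
    have hy : Valued.v y < 1 := by
      by_contra hy
      rw [not_lt] at hy
      exact absurd hxy (one_lt_mul_of_lt_of_le hx hy).ne'
    rw [Valuation.map_add_eq_of_lt_left _ (hy.trans hx)] at hs
    exact absurd hs (not_le.mpr hx)
  have h1 := eq_one_of_prod_eq_one (key _ _ hc1 hc2)
    (key _ _ (by rwa [mul_comm]) (by rwa [add_comm])) hc1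
  have hc : c ≠ 0 := by rintro rfl; simp at h1
  have h2 : Valued.v (c * g.val 1 1) = 1 := by rwa [h1, one_mul] at hc1
  have hcv : Valued.v c ≠ 0 := (Valuation.ne_zero_iff _).mpr hc
  refine mul_left_cancel₀ hcv ?_
  rw [← map_mul, ← map_mul, h1, h2]

theorem partCos_uniMat (y : Lv) :
    partCos v (uniMat v y : LCos 𝔫 v) = 2 * Real.log (max 1 ‖y‖) := by
  rw [partCos_mk, partFin, hLoc, hLoc]
  have e : (antiGL Lv * uniMat v y).val = !![0, 1; 1, y] := by
    rw [Units.val_mul, antiGL_entries, uniMat_val]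
    ext i j
    fin_cases i <;> fin_cases j <;> simp [Matrix.mul_apply, Fin.sum_univ_two]
  rw [e, uniMat_val]
  simp [Matrix.det_fin_two, Real.log_pow]

section Fund

variable {S : Setup} {u : HeightOneSpectrum (𝓞 S.K)} {t : GL (Fin 2) S.K} {a : S.K}
  (ha : (t : Matrix (Fin 2) (Fin 2) S.K) = Matrix.diagonal ![a, 1])
  (ht : (t : Matrix (Fin 2) (Fin 2) S.K).trace ^ 2 ≠
    4 * (t : Matrix (Fin 2) (Fin 2) S.K).det)

include ha in
theorem torus_locMat_val : (locMat u t).val = !![loc u a, 0; 0, 1] := by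
  refine Matrix.ext fun i j => ?_
  show loc u ((t : Matrix (Fin 2) (Fin 2) S.K) i j) = _
  rw [ha]
  fin_cases i <;> fin_cases j <;> simp

include ha ht in
theorem torus_ne_one : a ≠ 1 := by
  rintro rfl
  apply ht
  rw [ha]
  simp
  norm_num

include ha ht in
theorem isDiag2_of_mem_torusAt {g : GLv u} (hg : g ∈ torusAt u t) : IsDiag2 g := by
  have h := congrArg Units.val (Subgroup.mem_centralizer_singleton_iff.mp hg)
  rw [Units.val_mul, Units.val_mul, torus_locMat_val ha] at h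
  have h01 := congrFun (congrFun h 0) 1
  have h10 := congrFun (congrFun h 1) 0
  simp [Matrix.mul_apply, Fin.sum_univ_two] at h01 h10
  have ha1 : loc u a - 1 ≠ 0 := sub_ne_zero.mpr fun e =>
    torus_ne_one ha ht ((loc u).injective (e.trans (map_one _).symm))
  constructor
  · exact (mul_eq_zero.mp (show (loc u a - 1) * g.val 0 1 = 0 by linear_combination -h01)).resolve_left
      ha1
  · exact (mul_eq_zero.mp (show (loc u a - 1) * g.val 1 0 = 0 by linear_combination h10)).resolve_left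
      ha1

include ha in
theorem mem_torusAt_of_isDiag2 {g : GLv u} (hg : IsDiag2 g) : g ∈ torusAt u t := by
  rw [torusAt, Subgroup.mem_centralizer_singleton_iff]
  refine Units.ext ?_
  rw [Units.val_mul, Units.val_mul, torus_locMat_val ha]
  ext i j
  fin_cases i <;> fin_cases j <;>
    simp [Matrix.mul_apply, Fin.sum_univ_two, hg.1, hg.2, mul_comm]

variable {v' : HeightOneSpectrum (𝓞 L)}
  (ι : u.adicCompletion S.K →+* v'.adicCompletion L) {α : Type*} [MulAction (GLv u) α]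
  (e : α → LCos 𝔫 v')

include ha ht in
/-- The cosets of the `n(y)` form a fundamental set for the diagonal torus. -/
theorem isFundSet_uni (hv' : ¬ 𝔫 ≤ v'.asIdeal) (hι : ∀ x, Valued.v (ι x) = Valued.v x)
    (hg : ∀ (g : GLv u) (x : α), e (g • x) = Matrix.GeneralLinearGroup.map ι g • e x) :
    IsFundSet (torusAt u t) (torusU u t) Set.univ
      {x | ∃ y, e x = (uniMat v' y : LCos 𝔫 v')} where
  subset := Set.subset_univ _
  stable := by
    rintro g hgU x ⟨y, hy⟩
    obtain ⟨hle, hel⟩ := torusU_le' (u := u) ht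
    have hd := isDiag2_of_mem_torusAt ha ht (hle hgU)
    have h := diag_of_unitElt hd (hel g hgU)
    set d := Matrix.GeneralLinearGroup.map ι g
    have hd' : IsDiag2 d := ⟨(congrArg ι hd.1).trans (map_zero _),
      (congrArg ι hd.2).trans (map_zero _)⟩
    have h11 : d.val 1 1 ≠ 0 := hd'.ne_zero.2
    refine ⟨d.val 0 0 * y / d.val 1 1, ?_⟩
    rw [hg, hy, MulAction.Quotient.smul_coe, smul_eq_mul, diag_smul_uniMat_eq_iff hv' hd']
    refine ⟨?_, ?_⟩
    · show Valued.v (ι (g.val 0 0)) = Valued.v (ι (g.val 1 1))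
      rw [hι, hι, h]
    · rw [div_mul_cancel₀ _ h11, sub_self, map_zero]
      exact zero_le
  cover := by
    intro x _
    obtain ⟨d, y, hd, hy⟩ := exists_diag_uniMat hv' (e x)
    obtain ⟨h0, h1⟩ := hd.ne_zero
    obtain ⟨k, hk⟩ := LT.exists_eq_piLoc_zpow v' (div_ne_zero h0 h1)
    set p := ((LT.piLoc u : (u.adicCompletion S.K)ˣ) : u.adicCompletion S.K) ^ (-k)
    have hp : p ≠ 0 := zpow_ne_zero _ (LT.piLoc u).ne_zero
    set τ : GLv u := upperTri (Units.mk0 p hp) 0 1
    have hτ : IsDiag2 τ := ⟨rfl, rfl⟩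
    refine ⟨τ, mem_torusAt_of_isDiag2 ha hτ, (ι p * d.val 0 0 * y / d.val 1 1), ?_⟩
    have hd' : IsDiag2 (Matrix.GeneralLinearGroup.map ι τ * d) := by
      constructor <;>
        simp [Matrix.mul_apply, Fin.sum_univ_two, hd.1, hd.2, τ, upperTri]
    have e00 : (Matrix.GeneralLinearGroup.map ι τ * d).val 0 0 = ι p * d.val 0 0 := by
      simp [Matrix.mul_apply, Fin.sum_univ_two, hd.2, τ, upperTri]
    have e11 : (Matrix.GeneralLinearGroup.map ι τ * d).val 1 1 = d.val 1 1 := by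
      simp [Matrix.mul_apply, Fin.sum_univ_two, hd.1, τ, upperTri]
    rw [hg, ← hy, MulAction.Quotient.smul_coe, smul_eq_mul, ← mul_assoc,
      diag_smul_uniMat_eq_iff hv' hd', e00, e11]
    refine ⟨?_, ?_⟩
    · have hk' : Valued.v (d.val 0 0) = Valued.v (d.val 1 1) * exp (-k) := by
        rw [map_div₀, map_zpow₀, LT.valued_piLoc, ← exp_zsmul, smul_eq_mul, mul_neg_one,
          div_eq_iff ((Valuation.ne_zero_iff _).mpr h1)] at hk
        rw [hk, mul_comm]
      rw [map_mul, hι, map_zpow₀, LT.valued_piLoc, ← exp_zsmul, hk', mul_left_comm, ← exp_add]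
      simp
    · rw [div_mul_cancel₀ _ h1, sub_self, map_zero]
      exact zero_le
  unique := by
    rintro x ⟨y, hy⟩ g hgT ⟨z, hz⟩
    have hd := isDiag2_of_mem_torusAt ha ht hgT
    refine ⟨g, Subgroup.subset_closure ⟨hgT, ?_⟩, rfl⟩
    have hd' : IsDiag2 (Matrix.GeneralLinearGroup.map ι g) :=
      ⟨(congrArg ι hd.1).trans (map_zero _), (congrArg ι hd.2).trans (map_zero _)⟩
    rw [hg, hy, MulAction.Quotient.smul_coe, smul_eq_mul, diag_smul_uniMat_eq_iff hv' hd'] at hz
    have h : Valued.v (g.val 0 0) = Valued.v (g.val 1 1) := by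
      rw [← hι, ← hι]; exact hz.1
    have h11 := hd.ne_zero.2
    refine ⟨(g.val 1 1)⁻¹, ?_, ?_⟩
    · rw [Matrix.det_fin_two, hd.1, zero_mul, sub_zero, map_mul, map_pow, map_inv₀, map_mul, h]
      have : Valued.v (g.val 1 1) ≠ 0 := (Valuation.ne_zero_iff _).mpr h11
      field_simp
    · rw [Matrix.trace_fin_two, mul_add, inv_mul_cancel₀ h11]
      refine (Valuation.map_add _ _ _).trans (max_le ?_ (map_one _).le)
      rw [map_mul, map_inv₀, h, inv_mul_cancel₀ ((Valuation.ne_zero_iff _).mpr h11)]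

end Fund

end FermatAgent.LTG

end
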