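import Mathlib
import Fermat.Agent.LT.General.Geom.Local.InertField
import Fermat.Agent.LT.Descent.Geom.Local.InertBridge

set_option autoImplicit false

/-!
# The cosets at a good place with one place of `F` over it, general input
-/

noncomputable section

open NumberField IsDedekindDomain WithZero
open scoped MatrixGroups

namespace FermatAgent.LTG

open FermatAgent.LT (galPlace loc GLv LCos locMat locLevel placeCast piLoc piInt valued_piLoc
  irreducible_piInt exists_unit_mul_piLoc_zpow locLevel_eq_sphSub depth_eq_zero_iff)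
open FermatAgent.LT.Inert (IsFundSet depth sphSub Vtx gAut fixedVtx centFix centUnits centUnitSet)

section Place

variable {S : Setup} {D : S.Level} {σ : S.F ≃+* S.F} (hσ : S.IsGalGen σ)
  {v : HeightOneSpectrum (𝓞 S.K)} (hv : (S.m : 𝓞 S.K) ∉ v.asIdeal)
  (hin : ∀ w : S.OverK v, galPlace σ w.1 = w.1)

include hσ hin in
theorem subsingleton_overK : Subsingleton (S.OverK v) := by
  rcases moved_or_fixed hσ v with h | h
  · exact ⟨fun w => absurd (hin w) (h w)⟩
  · exact h.2

variable (w : S.OverK v)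

set_option quotPrecheck false
local notation "Ow" => HeightOneSpectrum.adicCompletionIntegers (↥(Setup.F S)) (Subtype.val w)
local notation "Fw" => HeightOneSpectrum.adicCompletion (↥(Setup.F S)) (Subtype.val w)
local notation "Ok" => HeightOneSpectrum.adicCompletionIntegers (↥(Setup.K S)) v
local notation "Kv" => HeightOneSpectrum.adicCompletion (↥(Setup.K S)) v

include hσ hv hin in
theorem valued_over (x : Kv) : Valued.v (S.inclOver w x) = Valued.v x :=
  valued_inclOver_inert hσ (hin w) w.2 (good_over hv w) x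

/-- The integers of `K_v` in those of `F_w`. -/
def inclInts : Ok →+* Ow :=
  ((S.inclOver w).comp (v.adicCompletionIntegers S.K).subtype).codRestrict
    (w.1.adicCompletionIntegers S.F).toSubring fun x =>
      (valued_over hσ hv hin w x).trans_le x.2

theorem inclInts_coe (x : Ok) :
    ((inclInts hσ hv hin w x : Ow) : Fw) = S.inclOver w x := rfl

theorem isUnit_inclInts {x : Ok} : IsUnit (inclInts hσ hv hin w x) ↔ IsUnit x := by
  rw [HeightOneSpectrum.adicCompletionIntegers.isUnit_iff_valued_eq_one,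
    HeightOneSpectrum.adicCompletionIntegers.isUnit_iff_valued_eq_one, inclInts_coe,
    valued_over hσ hv hin w]

/-- The uniformizer of `K_v` in `F_w`. -/
def piUp : Ow := inclInts hσ hv hin w (piInt v)

theorem irreducible_piUp : Irreducible (piUp hσ hv hin w) := by
  obtain ⟨k, u, hu⟩ := exists_unit_mul_piLoc_zpow w.1
    (x := ((piUp hσ hv hin w : Ow) : Fw))
    (show S.inclOver w ((piLoc v : Kvˣ) : Kv) ≠ 0 from (map_ne_zero _).mpr (piLoc v).ne_zero)
  have hval := congrArg Valued.v hu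
  rw [piUp, inclInts_coe, valued_over hσ hv hin w, map_mul, map_zpow₀, valued_piLoc,
    show Valued.v ((u : Ow) : Fw) = 1 from
      HeightOneSpectrum.adicCompletionIntegers.isUnit_iff_valued_eq_one.mp u.isUnit, one_mul,
    show Valued.v ((piInt v : Ok) : Kv) = exp (-1 : ℤ) from valued_piLoc v, ← exp_zsmul,
    exp_inj] at hval
  obtain rfl : k = 1 := by simpa using hval.symm
  have e : piUp hσ hv hin w = (u : Ow) * piInt w.1 := Subtype.ext (by
    rw [hu, zpow_one]; rfl)
  rw [e]
  exact (irreducible_isUnit_mul u.isUnit).mpr (irreducible_piInt _)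

theorem fixInt_inclInts (x : Ok) :
    fixInt hσ (hin w) (inclInts hσ hv hin w x) = inclInts hσ hv hin w x :=
  Subtype.ext (fixLoc_inclOver hσ (hin w) w.2 _)

/-- The inclusion of the local groups. -/
def inclGL : GLv v →* GLv w.1 := Matrix.GeneralLinearGroup.map (S.inclOver w)

theorem inclGL_injective : Function.Injective (inclGL w) := fun _ _ e =>
  Matrix.GeneralLinearGroup.ext fun i j => (S.inclOver w).injective
    (congrArg (fun M : GLv w.1 => (M : Matrix (Fin 2) (Fin 2) Fw) i j) e)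

include hσ in
theorem gAut_inclGL (g : GLv v) :
    gAut (fixLoc hσ (hin w)) (inclGL w g) = inclGL w g :=
  Matrix.GeneralLinearGroup.ext fun _ _ => fixLoc_inclOver hσ (hin w) w.2 _

include hσ hv in
theorem exists_inclGL_eq {g : GLv w.1} (hg : gAut (fixLoc hσ (hin w)) g = g) :
    ∃ g₀, inclGL w g₀ = g := by
  choose A hA using fun i j => exists_inclOver_eq hσ (hin w) w.2 (good_over hv w)
    (x := (g : Matrix (Fin 2) (Fin 2) Fw) i j) (congrArg (fun M : GLv w.1 => (M : Matrix (Fin 2) (Fin 2) Fw) i j) hg)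
  have e : (Matrix.of A).map (S.inclOver w) = (g : Matrix (Fin 2) (Fin 2) Fw) :=
    Matrix.ext fun i j => hA i j
  have hdet : (Matrix.of A).det ≠ 0 := fun h0 => g.det_ne_zero (by
    rw [← e, ← RingHom.mapMatrix_apply, ← RingHom.map_det, h0, map_zero])
  exact ⟨Matrix.GeneralLinearGroup.mkOfDetNeZero _ hdet,
    Matrix.GeneralLinearGroup.ext fun i j => hA i j⟩

include hσ hv hin in
theorem depth_inclGL (g : GLv v) : depth Ow (inclGL w g) = depth Ok g := by
  obtain ⟨d, hd⟩ := LT.Inert.exists_hasDepth (O := Ok) (irreducible_piInt v) g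
  rw [LT.Inert.depth_eq hd]
  obtain ⟨c, hc, A, ⟨i, j, hij⟩, hcA, hdA⟩ := hd
  set ι := inclInts hσ hv hin w
  refine LT.Inert.depth_eq ⟨S.inclOver w c, (map_ne_zero _).mpr hc, A.map ι,
    ⟨i, j, (isUnit_inclInts hσ hv hin w).mpr hij⟩, ?_, ?_⟩
  · refine Matrix.ext fun a b => ?_
    have h := congrArg (S.inclOver w) (congrFun (congrFun hcA a) b)
    simp only [Matrix.smul_apply, smul_eq_mul, map_mul, LT.Inert.intMat_apply] at h
    exact h
  · rw [← RingHom.mapMatrix_apply, ← RingHom.map_det]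
    have hA0 : A.det ≠ 0 := fun h0 => by
      rw [h0, IsDiscreteValuationRing.addVal_zero] at hdA
      exact ENat.natCast_ne_top d hdA.symm
    obtain ⟨k, u, hu⟩ :=
      IsDiscreteValuationRing.eq_unit_mul_pow_irreducible hA0 (irreducible_piInt v)
    rw [hu, IsDiscreteValuationRing.addVal_mul, IsDiscreteValuationRing.addVal_pow,
      IsDiscreteValuationRing.addVal_uniformizer (irreducible_piInt v),
      IsDiscreteValuationRing.addVal_eq_zero_iff.mpr u.isUnit] at hdA
    rw [hu, map_mul, map_pow, show ι (piInt v) = piUp hσ hv hin w from rfl,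
      IsDiscreteValuationRing.addVal_mul,
      IsDiscreteValuationRing.addVal_pow,
      IsDiscreteValuationRing.addVal_uniformizer (irreducible_piUp hσ hv hin w),
      IsDiscreteValuationRing.addVal_eq_zero_iff.mpr (u.isUnit.map ι)]
    exact hdA

/-- The cosets of `K` as vertices of the tree of `F_w`. -/
def vtxK (y : LCos (D.levelIdeal S.K) v) : Vtx Ow Fw := (inclGL w y.out : Vtx Ow Fw)

include hσ hv hin in
theorem vtxK_mk (g : GLv v) :
    vtxK w (g : LCos (D.levelIdeal S.K) v) = (inclGL w g : Vtx Ow Fw) := by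
  obtain ⟨⟨x, hx⟩, e⟩ := QuotientGroup.mk_out_eq_mul (locLevel (D.levelIdeal S.K) v) g
  rw [vtxK, e, QuotientGroup.eq, map_mul, mul_inv_rev, mul_assoc, inv_mul_cancel, mul_one]
  rw [locLevel_eq_sphSub (D.not_levelIdeal_le hv), ← depth_eq_zero_iff,
    ← depth_inclGL hσ hv hin w, depth_eq_zero_iff] at hx
  exact inv_mem hx

include hσ hv hin in
theorem vtxK_smul (g : GLv v) (y : LCos (D.levelIdeal S.K) v) :
    vtxK w (g • y) = inclGL w g • vtxK w y := by
  obtain ⟨a, rfl⟩ := QuotientGroup.mk_surjective y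
  rw [MulAction.Quotient.smul_coe, smul_eq_mul, vtxK_mk hσ hv hin,
    vtxK_mk hσ hv hin, map_mul]
  rfl

include hσ hv hin in
theorem vtxK_injective :
    Function.Injective (vtxK w : LCos (D.levelIdeal S.K) v → Vtx Ow Fw) := by
  intro a b e
  obtain ⟨g, rfl⟩ := QuotientGroup.mk_surjective a
  obtain ⟨h, rfl⟩ := QuotientGroup.mk_surjective b
  rw [vtxK_mk hσ hv hin, vtxK_mk hσ hv hin, QuotientGroup.eq, ← map_inv,
    ← map_mul, ← depth_eq_zero_iff, depth_inclGL hσ hv hin w, depth_eq_zero_iff] at e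
  rw [QuotientGroup.eq, locLevel_eq_sphSub (D.not_levelIdeal_le hv)]
  exact e

include hσ hv hin in
theorem range_vtxK :
    vtxK w '' (Set.univ : Set (LCos (D.levelIdeal S.K) v)) =
      fixedVtx Ow Fw (fixLoc_algebraMap hσ (hin w)) := by
  ext x
  constructor
  · rintro ⟨y, -, rfl⟩
    show LT.Inert.vAut _ _ = _
    rw [vtxK, LT.Inert.vAut_mk, gAut_inclGL hσ hin]
  · intro hx
    obtain ⟨g, hg, rfl⟩ := LT.Inert.exists_fixed_vertex_rep (fixLoc_algebraMap hσ (hin w))
      (irreducible_piUp hσ hv hin w) (fixInt_inclInts hσ hv hin w (piInt v))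
      (isCubic_fixInt hσ (hin w) (good_over hv w)) hx
    obtain ⟨g₀, rfl⟩ := exists_inclGL_eq hσ hv hin w hg
    exact ⟨(g₀ : LCos (D.levelIdeal S.K) v), trivial, vtxK_mk hσ hv hin w g₀⟩

/-- The cosets of `F` over `v` as vertices of the tree of `F_w`. -/
def vtxF (x : D.XF v) : Vtx Ow Fw := ((x w).out : Vtx Ow Fw)

theorem vtxF_of_mk {x : D.XF v} {g : GLv w.1} (hw : (S.m : 𝓞 S.F) ∉ w.1.asIdeal)
    (h : x w = (g : LCos (D.levelIdeal S.F) w.1)) : vtxF w x = (g : Vtx Ow Fw) := by
  rw [vtxF, h, QuotientGroup.eq]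
  obtain ⟨⟨z, hz⟩, e⟩ := QuotientGroup.mk_out_eq_mul (locLevel (D.levelIdeal S.F) w.1) g
  rw [e, mul_inv_rev, mul_assoc, inv_mul_cancel, mul_one]
  rw [locLevel_eq_sphSub (D.not_levelIdeal_le hw)] at hz
  exact inv_mem hz

include hv in
theorem vtxF_smul (g : GLv v) (x : D.XF v) : vtxF w (g • x) = inclGL w g • vtxF w x := by
  obtain ⟨a, ha⟩ := QuotientGroup.mk_surjective (x w)
  rw [vtxF_of_mk w (g := inclGL w g * a) (good_over hv w) (by
    show inclGL w g • x w = _
    rw [← ha]; rfl), vtxF_of_mk w (good_over hv w) ha.symm]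
  rfl

include hσ hv hin in
theorem vtxF_bijective : Function.Bijective (vtxF w : D.XF v → Vtx Ow Fw) := by
  have := subsingleton_overK hσ hin
  refine ⟨fun x y e => funext fun w' => ?_, fun z => ?_⟩
  · obtain rfl := Subsingleton.elim w w'
    rw [← QuotientGroup.out_eq' (x w), ← QuotientGroup.out_eq' (y w), QuotientGroup.eq]
    exact (SetLike.ext_iff.mp (locLevel_eq_sphSub (D.not_levelIdeal_le (good_over hv w))) _).mpr
      (QuotientGroup.eq.mp e)
  · obtain ⟨g, rfl⟩ := QuotientGroup.mk_surjective z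
    have key : ∀ w' : S.OverK v, ∃ q : LCos (D.levelIdeal S.F) w'.1, ∀ h : w' = w,
        h ▸ q = (g : LCos (D.levelIdeal S.F) w.1) := by
      intro w'
      obtain rfl := Subsingleton.elim w' w
      exact ⟨g, fun h => rfl⟩
    choose x hx using key
    exact ⟨x, vtxF_of_mk w (good_over hv w) (hx w rfl)⟩

include hσ hv in
theorem map_torusAt (t : GL (Fin 2) S.K) :
    (torusAt v t).map (inclGL w) =
      centFix (fixLoc hσ (hin w)) (inclGL w (locMat v t)) := by
  ext g
  constructor
  · rintro ⟨h, hh, rfl⟩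
    refine ⟨gAut_inclGL hσ hin w h, ?_⟩
    show inclGL w h ∈ Subgroup.centralizer _
    rw [Subgroup.mem_centralizer_singleton_iff, ← map_mul, ← map_mul,
      Subgroup.mem_centralizer_singleton_iff.mp hh]
  · rintro ⟨h1, h2⟩
    obtain ⟨h, rfl⟩ := exists_inclGL_eq hσ hv hin w h1
    replace h2 : inclGL w h ∈ Subgroup.centralizer {inclGL w (locMat v t)} := h2
    rw [Subgroup.mem_centralizer_singleton_iff, ← map_mul, ← map_mul] at h2
    exact ⟨h, Subgroup.mem_centralizer_singleton_iff.mpr (inclGL_injective w h2), rfl⟩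

include hσ hv in
theorem map_torusU (t : GL (Fin 2) S.K) :
    (torusU v t).map (inclGL w) =
      centUnits Ow (fixLoc hσ (hin w)) (inclGL w (locMat v t)) := by
  rw [torusU, MonoidHom.map_closure, centUnits]
  congr 1
  have htr : ∀ g : GLv v, ((inclGL w g : GLv w.1) : Matrix (Fin 2) (Fin 2) Fw).trace =
      S.inclOver w (g : Matrix (Fin 2) (Fin 2) Kv).trace := fun g => by
    simp [inclGL, Matrix.trace_fin_two]
  have hdet : ∀ g : GLv v, ((inclGL w g : GLv w.1) : Matrix (Fin 2) (Fin 2) Fw).det =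
      S.inclOver w (g : Matrix (Fin 2) (Fin 2) Kv).det := fun g => by
    rw [RingHom.map_det]; rfl
  have hval := valued_over hσ hv hin w
  ext g
  constructor
  · rintro ⟨h, ⟨hh, c, hc1, hc2⟩, rfl⟩
    refine ⟨by rw [← map_torusAt hσ hv hin w]; exact ⟨h, hh, rfl⟩, S.inclOver w c,
      ⟨S.inclOver w (c * (h : Matrix (Fin 2) (Fin 2) Kv).trace),
        (hval _).trans_le hc2⟩, (?_ : IsUnit (⟨S.inclOver w
          (c ^ 2 * (h : Matrix (Fin 2) (Fin 2) Kv).det), ((hval _).trans hc1).le⟩ : Ow)).unit,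
      ?_, ?_⟩
    · rw [HeightOneSpectrum.adicCompletionIntegers.isUnit_iff_valued_eq_one]
      exact (hval _).trans hc1
    · rw [htr, ← map_mul]; rfl
    · rw [IsUnit.unit_spec, hdet, ← map_pow, ← map_mul]; rfl
  · rintro ⟨hg, c, a, b, hca, hcb⟩
    rw [← map_torusAt hσ hv hin w] at hg
    obtain ⟨h, hh, rfl⟩ := hg
    have hb1 : Valued.v ((b : Ow) : Fw) = 1 :=
      HeightOneSpectrum.adicCompletionIntegers.isUnit_iff_valued_eq_one.mp b.isUnit
    have hc0 : c ≠ 0 := by
      rintro rfl
      rw [show (0 : Fw) ^ 2 * _ = 0 by ring] at hcb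
      have h0 := congrArg Valued.v hcb
      rw [map_zero, show algebraMap Ow Fw (b : Ow) = ((b : Ow) : Fw) from rfl, hb1] at h0
      exact one_ne_zero h0.symm
    -- a scalar of `K_v` of the same absolute value
    have hc' : ((piLoc v : Kvˣ) : Kv) ^ (-log (Valued.v c)) ≠ 0 :=
      zpow_ne_zero _ (piLoc v).ne_zero
    have hcv : Valued.v (((piLoc v : Kvˣ) : Kv) ^ (-log (Valued.v c))) = Valued.v c := by
      rw [map_zpow₀, valued_piLoc, ← exp_zsmul, smul_eq_mul, neg_mul_neg, mul_one,
        exp_log ((Valuation.ne_zero_iff _).mpr hc0)]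
    refine ⟨h, ⟨hh, ((piLoc v : Kvˣ) : Kv) ^ (-log (Valued.v c)), ?_, ?_⟩, rfl⟩
    · rw [map_mul, map_pow, hcv, ← hval, ← hdet, ← map_pow, ← map_mul, hcb]
      exact hb1
    · rw [map_mul, hcv, ← hval, ← htr, ← map_mul, hca]
      exact a.2

end Place

end FermatAgent.LTG

end
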