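import Mathlib
import Fermat.Agent.LT.General.Geom.Local.InertBridge
import Fermat.Agent.LT.General.Geom.LocalData
import Fermat.Agent.LT.Descent.Geom.Local.InertPlace

set_option autoImplicit false

/-!
# Matching and vanishing at the good places with one place of `F` over them, general input
-/

noncomputable section

open NumberField IsDedekindDomain WithZero
open scoped MatrixGroups

namespace FermatAgent.LTG

open FermatAgent.LT (galPlace galLoc galInt loc valued_loc GLv LCos locMat placeCast lKer locHecke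
  piLoc piInt valued_piLoc natCard_residue_adic cosDist_mk lKer_locHecke_pow)
open FermatAgent.LT.Inert (IsFundSet depth moveDist gAut heckeStep bcStep bcFun unitFun)

variable {S : Setup} {D : S.Level} {σ : S.F ≃+* S.F} (hσ : S.IsGalGen σ)

include hσ in
theorem Setup.IsNormPair.commute {t : GL (Fin 2) S.K} {δ : GL (Fin 2) S.F}
    (h : S.IsNormPair σ t δ) :
    δ * Matrix.GeneralLinearGroup.map S.inclKF.toRingHom t =
      Matrix.GeneralLinearGroup.map S.inclKF.toRingHom t * δ := by
  set G := Matrix.GeneralLinearGroup.map (n := Fin 2) σ.toRingHom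
  set T := Matrix.GeneralLinearGroup.map S.inclKF.toRingHom t
  have h3 : G (G (G δ)) = δ := Matrix.GeneralLinearGroup.ext fun _ _ => hσ.cube _
  have hT : G T = T := Matrix.GeneralLinearGroup.ext fun _ _ => hσ.2 _
  have h1 : G δ * G (G δ) * δ = T := by
    have := congrArg G h.norm
    rwa [map_mul, map_mul, h3, hT] at this
  calc δ * T = δ * (G δ * G (G δ) * δ) := by rw [h1]
    _ = (δ * G δ * G (G δ)) * δ := by group
    _ = T * δ := by rw [h.norm]

section Place

variable {v : HeightOneSpectrum (𝓞 S.K)} (hv : (S.m : 𝓞 S.K) ∉ v.asIdeal)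
  (hin : ∀ w : S.OverK v, galPlace σ w.1 = w.1) (w : S.OverK v)

theorem inclGL_locMat (g : GL (Fin 2) S.K) :
    inclGL w (locMat v g) =
      locMat w.1 (Matrix.GeneralLinearGroup.map S.inclKF.toRingHom g) :=
  Matrix.GeneralLinearGroup.ext fun _ _ => S.inclOver_loc w _

theorem gAut_locMat (g : GL (Fin 2) S.F) :
    gAut (fixLoc hσ (hin w)) (locMat w.1 g) =
      locMat w.1 (Matrix.GeneralLinearGroup.map σ.toRingHom g) :=
  Matrix.GeneralLinearGroup.ext fun _ _ => fixLocHom_loc (hin w) _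

include hσ hv hin in
theorem absNorm_over :
    Ideal.absNorm w.1.asIdeal = Ideal.absNorm v.asIdeal ^ 3 := by
  rw [← natCard_residue_adic w.1, ← natCard_resFixed hσ (hin w) w.2 (good_over hv w)]
  exact LT.Inert.card_residue (isCubic_fixInt hσ (hin w) (good_over hv w))

variable (Λ : D.LocalOps σ) {l : List (HeightOneSpectrum (𝓞 S.F))}
  (hl : ∀ u ∈ l, Ideal.absNorm u.asIdeal = Ideal.absNorm (S.underK u).asIdeal)

include hσ hv hin hl in
theorem not_mem_word : w.1 ∉ l := by
  intro h
  have h1 := hl _ h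
  rw [absNorm_over hσ hv hin w, w.2] at h1
  exact (lt_self_pow₀ (NumberField.HeightOneSpectrum.one_lt_absNorm v) (by norm_num)).ne' h1

include hσ hv hin hl in
theorem opF_inert : Λ.opF l w.1 = 1 := by
  classical
  rw [Setup.Level.LocalOps.opF, Λ.goodF _ (good_over hv w), one_mul,
    List.count_eq_zero.mpr (not_mem_word hσ hv hin w hl), pow_zero]

include hσ hv hin hl in
theorem opK_inert : Λ.opK l v = 1 := by
  classical
  have h0 : v ∉ l.map S.underK := by
    intro h
    obtain ⟨u, hu, rfl⟩ := List.mem_map.mp h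
    exact not_mem_word hσ hv hin ⟨u, rfl⟩ hl hu
  rw [Setup.Level.LocalOps.opK, Λ.goodK _ hv, one_mul, List.count_eq_zero.mpr h0, pow_zero]

theorem out_cast (x : D.XF v) {w w' : S.OverK v} (e : w' = w) :
    Matrix.GeneralLinearGroup.map (placeCast (congrArg Subtype.val e).symm) (x w).out =
      (x w').out := by
  subst e
  exact Matrix.GeneralLinearGroup.ext fun _ _ => rfl

include hv hl in
theorem bF_inert (δ : GL (Fin 2) S.F) {π : w.1.adicCompletionIntegers S.F} (hπ : Irreducible π)
    (x : D.XF v) :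
    Λ.bF l hσ δ v x =
      unitFun (moveDist (fixLoc_algebraMap hσ (hin w)) hπ (locMat w.1 δ) (vtxF w x)) := by
  have hsub := subsingleton_overK hσ hin
  rw [Setup.Level.LocalOps.bF,
    finprod_eq_single _ w (fun w' hw' => absurd (Subsingleton.elim w' w) hw'),
    opF_inert hσ hv hin w Λ hl, ← pow_zero (locHecke _ w.1),
    lKer_locHecke_pow (D.not_levelIdeal_le (good_over hv w))]
  have e : galLCos σ w.1 (x (S.nextOver hσ w)) =
      ((gAut (fixLoc hσ (hin w)) (x w).out : GLv w.1) : LCos (D.levelIdeal S.F) w.1) := by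
    show ((Matrix.GeneralLinearGroup.map (galLoc σ w.1) (x (S.nextOver hσ w)).out : GLv w.1) :
      LCos (D.levelIdeal S.F) w.1) = _
    rw [← out_cast x (Subsingleton.elim (S.nextOver hσ w) w)]
    rfl
  rw [e, MulAction.Quotient.smul_coe, smul_eq_mul]
  have e2 := cosDist_mk (D.not_levelIdeal_le (good_over hv w)) (x w).out
    (locMat w.1 δ * gAut (fixLoc hσ (hin w)) (x w).out)
  rw [QuotientGroup.out_eq'] at e2
  rw [e2, vtxF, LT.Inert.moveDist_mk, mul_assoc]
  rfl

include hσ hv hin hl in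
theorem bK_inert (t : GL (Fin 2) S.K) (y : LCos (D.levelIdeal S.K) v) :
    Λ.bK l t v y =
      unitFun (moveDist (fixLoc_algebraMap hσ (hin w)) (irreducible_piUp hσ hv hin w)
        (inclGL w (locMat v t)) (vtxK w y)) := by
  obtain ⟨a, rfl⟩ := QuotientGroup.mk_surjective y
  show lKer (Λ.opK l v) (a : LCos (D.levelIdeal S.K) v)
    ((locMat v t * a : GLv v) : LCos (D.levelIdeal S.K) v) = _
  rw [opK_inert hσ hv hin Λ hl, ← pow_zero (locHecke _ v),
    lKer_locHecke_pow (D.not_levelIdeal_le hv), cosDist_mk (D.not_levelIdeal_le hv),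
    vtxK_mk hσ hv hin, LT.Inert.moveDist_mk, gAut_inclGL hσ hin, ← map_inv, ← map_mul, ← map_mul,
    depth_inclGL hσ hv hin w, mul_assoc]
  rfl

theorem regular_inclGL {t : GL (Fin 2) S.K}
    (ht : (t : Matrix (Fin 2) (Fin 2) S.K).trace ^ 2 ≠ 4 * (t : Matrix (Fin 2) (Fin 2) S.K).det) :
    ((inclGL w (locMat v t) : GLv w.1) : Matrix (Fin 2) (Fin 2) (w.1.adicCompletion S.F)).trace ^ 2 ≠
      4 * ((inclGL w (locMat v t) : GLv w.1) : Matrix (Fin 2) (Fin 2) (w.1.adicCompletion S.F)).det := by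
  set f := (S.inclOver w).comp (loc v)
  have e : ((inclGL w (locMat v t) : GLv w.1) : Matrix (Fin 2) (Fin 2) (w.1.adicCompletion S.F)) =
      f.mapMatrix (t : Matrix (Fin 2) (Fin 2) S.K) := rfl
  intro h0
  apply ht
  apply f.injective
  rw [map_pow, map_mul, map_ofNat, RingHom.map_det, ← e, ← h0, e]
  simp [Matrix.trace_fin_two]

include hσ hv hin hl in
/-- The orbital sums of `F` and of `K` agree at a good place with one place over it. -/
theorem local_matching_inert {t : GL (Fin 2) S.K} {δ : GL (Fin 2) S.F}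
    (h : S.IsNormPair σ t δ) {ΩF : Set (D.XF v)} {ΩK : Set (LCos (D.levelIdeal S.K) v)}
    (hF : IsFundSet (torusAt v t) (torusU v t) Set.univ ΩF)
    (hK : IsFundSet (torusAt v t) (torusU v t) Set.univ ΩK) :
    (ΩF ∩ Function.support (Λ.bF l hσ δ v)).Finite ∧
      ∑ᶠ x ∈ ΩF, Λ.bF l hσ δ v x = ∑ᶠ y ∈ ΩK, Λ.bK l t v y := by
  obtain ⟨w⟩ := exists_overK_place S v
  have hw := good_over hv w
  have hs := fixLoc_algebraMap hσ (hin w)
  have hπ := irreducible_piUp hσ hv hin w
  have hbijF := vtxF_bijective (D := D) hσ hv hin w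
  have hinjK := vtxK_injective (D := D) hσ hv hin w
  have hFF := hF.map (inclGL w) hbijF.1 (vtxF_smul hv w)
  rw [Set.image_univ, hbijF.2.range_eq, map_torusAt hσ hv hin w,
    map_torusU hσ hv hin w] at hFF
  have hKK := hK.map (inclGL w) hinjK (vtxK_smul hσ hv hin w)
  rw [range_vtxK hσ hv hin w, map_torusAt hσ hv hin w,
    map_torusU hσ hv hin w] at hKK
  set T := Matrix.GeneralLinearGroup.map S.inclKF.toRingHom t
  have hγ : inclGL w (locMat v t) = locMat w.1 T := inclGL_locMat w t
  obtain ⟨hfin, -, heq⟩ := LT.Inert.inert_matching hs hπ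
    (fixInt_inclInts hσ hv hin w (piInt v)) (isCubic_fixInt hσ (hin w) hw)
    (γ := inclGL w (locMat v t)) (δ := locMat w.1 δ)
    (gAut_inclGL hσ hin w _) (regular_inclGL w h.regular)
    (by rw [hγ, ← map_mul, ← map_mul, h.commute hσ])
    ⟨1, by rw [one_smul, hγ, gAut_locMat, gAut_locMat, ← map_mul, ← map_mul, h.norm]⟩
    (f := unitFun) (M := 0 + 1)
    (fun k hk => LT.Inert.heckeStep_iterate_eq_zero (q := (0 : ℂ)) 0 hk) hFF hKK
  rw [natCard_resFixed hσ (hin w) w.2 hw] at heq
  have hb0 := LT.Inert.bcFun_pow (q := (Ideal.absNorm v.asIdeal : ℂ)) (k := 0)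
  simp only [Function.iterate_zero, id_eq] at hb0
  rw [hb0] at heq
  refine ⟨?_, ?_⟩
  · refine Set.Finite.of_finite_image (hfin.subset ?_) hbijF.1.injOn
    rintro _ ⟨x, ⟨hx, hx'⟩, rfl⟩
    rw [Function.mem_support, bF_inert hσ hv hin w Λ hl δ hπ] at hx'
    exact ⟨⟨x, hx, rfl⟩, hx'⟩
  · rw [finsum_mem_congr rfl fun x _ => bF_inert hσ hv hin w Λ hl δ hπ x,
      finsum_mem_congr rfl fun y _ => bK_inert hσ hv hin w Λ hl t y,
      ← finsum_mem_image
        (f := fun z => unitFun (moveDist hs hπ (locMat w.1 δ) z)) hbijF.1.injOn,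
      ← finsum_mem_image (f := fun z => unitFun
        (moveDist hs hπ (inclGL w (locMat v t)) z)) hinjK.injOn]
    exact heq

end Place

end FermatAgent.LTG

end
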