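import Mathlib
import Fermat.Agent.LT.General.Geom.Local.FixedUni
import Fermat.Agent.LT.General.Geom.Local.InertPlace

set_option autoImplicit false

/-!
# The weighted orbital sums of a diagonal element at a good place with one place over it

Both sums count the `n(y)` killed by `a - 1`; the weight on `F` is three times the one on `K`.
-/

noncomputable section

open NumberField IsDedekindDomain WithZero
open scoped MatrixGroups

namespace FermatAgent.LTG

open FermatAgent.LT (galPlace GLv LCos locMat loc valued_loc locLevel lKer lKer_one partCos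
  partCos_smul IsDiag2 uniMat uniMat_val galLoc placeCast)
open FermatAgent.LT.Inert (IsFundSet gAut)

variable {S : Setup} {D : S.Level} {σ : S.F ≃+* S.F} (hσ : S.IsGalGen σ)
  {v : HeightOneSpectrum (𝓞 S.K)} (hv : (S.m : 𝓞 S.K) ∉ v.asIdeal)
  (hin : ∀ w : S.OverK v, galPlace σ w.1 = w.1) (w : S.OverK v)

set_option quotPrecheck false
local notation "sF" => fixLoc hσ (hin w)
local notation "Fw" => HeightOneSpectrum.adicCompletion (↥(Setup.F S)) (Subtype.val w)

include hσ hv hin in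
theorem norm_inclOver_inert (x : v.adicCompletion S.K) : ‖S.inclOver w x‖ = ‖x‖ ^ 3 := by
  have key : ∀ (N N' : NNReal) (hN : N ≠ 0) (hN' : N' ≠ 0) (a : WithZero (Multiplicative ℤ)),
      N = N' ^ 3 → (WithZeroMulInt.toNNReal hN a : ℝ) =
        (WithZeroMulInt.toNNReal hN' a : ℝ) ^ 3 := by
    intro N N' hN hN' a h
    subst h
    rcases eq_or_ne a 0 with rfl | ha
    · simp
    · rw [WithZeroMulInt.toNNReal_neg_apply _ ha, WithZeroMulInt.toNNReal_neg_apply _ ha]
      push_cast
      simp only [← zpow_natCast, ← zpow_mul]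
      ring_nf
  rw [FinitePlace.norm_def, FinitePlace.norm_def, valued_over hσ hv hin w]
  exact key _ _ _ _ _ (by rw [absNorm_over hσ hv hin w]; push_cast; rfl)

include hσ hin in
theorem valued_sF (x : Fw) : Valued.v (sF x) = Valued.v x := valued_fixLocHom (hin w) x

theorem sF_cube (x : Fw) : sF (sF (sF x)) = x := fixLocHom_cube hσ (hin w) x

include hσ hv hin in
/-- An integral element with unit twisted trace. -/
theorem exists_twisted_unit {β : Fw} (hβ : Valued.v β = 1) :
    ∃ θ : Fw, Valued.v θ ≤ 1 ∧ Valued.v (θ + β * sF θ + β * sF β * sF (sF θ)) = 1 := by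
  obtain ⟨o, ho⟩ := exists_gal_moves (S := S) hσ (good_over hv w)
  set x : Fw := loc w.1 (o : S.F)
  have hx : Valued.v x ≤ 1 := by
    rw [LT.valued_loc_int]; exact w.1.intValuation_le_one o
  have hmove : Valued.v (sF x - x) = 1 := by
    show Valued.v (fixLocHom (hin w) (loc w.1 (o : S.F)) - loc w.1 (o : S.F)) = 1
    rw [fixLocHom_loc, ← map_sub, ← LT.galInt_coe, RingOfIntegers.coe_eq_algebraMap, ← map_sub,
      ← RingOfIntegers.coe_eq_algebraMap, LT.valued_loc_int]
    exact HeightOneSpectrum.intValuation_eq_one_iff.mpr ho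
  have hmove2 : Valued.v (x - sF (sF x)) = 1 := by
    rw [← valued_sF hσ hin w, map_sub, sF_cube hσ hin w, hmove]
  by_contra! hcon
  set R : Fw → Fw := fun θ => θ + β * sF θ + β * sF β * sF (sF θ)
  have hsx : Valued.v (sF x) ≤ 1 := (valued_sF hσ hin w x).trans_le hx
  have hssx : Valued.v (sF (sF x)) ≤ 1 := (valued_sF hσ hin w _).trans_le hsx
  have hle : ∀ θ, Valued.v θ ≤ 1 → Valued.v (R θ) < 1 := fun θ hθ => by
    refine lt_of_le_of_ne ?_ (hcon θ hθ)
    refine (Valuation.map_add _ _ _).trans (max_le ((Valuation.map_add _ _ _).trans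
      (max_le hθ ?_)) ?_)
    · rw [map_mul, hβ, one_mul, valued_sF hσ hin w]; exact hθ
    · rw [map_mul, map_mul, hβ, valued_sF hσ hin w, hβ, one_mul, one_mul,
        valued_sF hσ hin w, valued_sF hσ hin w]
      exact hθ
  have e : (x - sF x) * (x - sF (sF x)) =
      R (x ^ 2) - (sF x + sF (sF x)) * R x + sF x * sF (sF x) * R 1 := by
    simp only [R, map_pow, map_one]; ring
  have h1 : Valued.v ((x - sF x) * (x - sF (sF x))) = 1 := by
    rw [map_mul, Valuation.map_sub_swap, hmove, hmove2, one_mul]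
  rw [e] at h1
  refine h1.not_lt ((Valuation.map_add _ _ _).trans_lt (max_lt ((Valuation.map_sub _ _ _).trans_lt
    (max_lt (hle _ ?_) ?_)) ?_))
  · rw [map_pow]; exact pow_le_one₀ zero_le hx
  · rw [map_mul]
    exact ((mul_le_mul' ((Valuation.map_add _ _ _).trans (max_le hsx hssx)) le_rfl).trans_eq
      (one_mul _)).trans_lt (hle _ hx)
  · rw [map_mul, map_mul]
    exact ((mul_le_mul' (mul_le_one' hsx hssx) le_rfl).trans_eq
      (one_mul _)).trans_lt (hle _ (map_one _).le)

include hσ hv hin in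
/-- The twisted fixed classes are the image of those of `K` moved by a unit. -/
theorem exists_twist {β : Fw} (hβ : Valued.v β = 1) {a : v.adicCompletion S.K}
    (hN : β * sF β * sF (sF β) = S.inclOver w a) :
    ∃ u : Fw, Valued.v u = 1 ∧
      (∀ z : v.adicCompletion S.K, Valued.v ((a - 1) * z) ≤ 1 →
        Valued.v (β * sF (u * S.inclOver w z) - u * S.inclOver w z) ≤ 1) ∧
      ∀ y : Fw, Valued.v (β * sF y - y) ≤ 1 → ∃ z : v.adicCompletion S.K,
        Valued.v ((a - 1) * z) ≤ 1 ∧ Valued.v (y - u * S.inclOver w z) ≤ 1 := by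
  have vs := valued_sF hσ hin w
  have vi := valued_over hσ hv hin w
  have hfixi : ∀ z, sF (S.inclOver w z) = S.inclOver w z :=
    fun z => fixLoc_inclOver hσ (hin w) w.2 z
  obtain ⟨θ, hθ, hu⟩ := exists_twisted_unit hσ hv hin w hβ
  set u := θ + β * sF θ + β * sF β * sF (sF θ)
  have hbu : β * sF u = u + (S.inclOver w a - 1) * θ := by
    rw [← hN]; simp only [u, map_add, map_mul, sF_cube hσ hin w]; ring
  refine ⟨u, hu, fun z hz => ?_, fun y hy => ?_⟩
  · rw [map_mul, hfixi, ← mul_assoc, hbu, show (u + (S.inclOver w a - 1) * θ) * S.inclOver w z -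
      u * S.inclOver w z = θ * ((S.inclOver w a - 1) * S.inclOver w z) by ring, map_mul,
      ← map_one (S.inclOver w), ← map_sub, ← map_mul (S.inclOver w), vi]
    exact mul_le_one' hθ hz
  have hA : Valued.v ((S.inclOver w a - 1) * y) ≤ 1 := by
    have h2 : Valued.v (β * (sF (β * sF y - y))) ≤ 1 := by
      rw [map_mul, hβ, one_mul, vs]; exact hy
    have h3 : Valued.v (β * sF β * sF (sF (β * sF y - y))) ≤ 1 := by
      rw [map_mul, map_mul, vs, hβ, vs, vs, one_mul, one_mul]; exact hy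
    rw [← hN, show (β * sF β * sF (sF β) - 1) * y =
      (β * sF y - y) + β * sF (β * sF y - y) + β * sF β * sF (sF (β * sF y - y)) by
        simp only [map_sub, map_mul, sF_cube hσ hin w]; ring]
    exact (Valuation.map_add _ _ _).trans (max_le ((Valuation.map_add _ _ _).trans
      (max_le hy h2)) h3)
  have hu0 : u ≠ 0 := fun h0 => by rw [h0, map_zero] at hu; exact zero_ne_one hu
  set z := y / u
  have hyz : y = u * z := (mul_div_cancel₀ _ hu0).symm
  have hzA : Valued.v ((S.inclOver w a - 1) * z) ≤ 1 := by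
    rw [hyz, mul_left_comm, map_mul, hu, one_mul] at hA; exact hA
  have hsz : Valued.v (sF z - z) ≤ 1 := by
    have e : u * (sF z - z) = (β * sF y - y) - (S.inclOver w a - 1) * θ * sF z := by
      rw [hyz, map_mul, ← mul_assoc, hbu]; ring
    have h1 : Valued.v (u * (sF z - z)) ≤ 1 := by
      rw [e]
      refine (Valuation.map_sub _ _ _).trans (max_le hy ?_)
      rw [mul_right_comm, map_mul, map_mul (Valued.v), vs, ← map_mul (Valued.v)]
      exact mul_le_one' hzA hθ
    rwa [map_mul, hu, one_mul] at h1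
  obtain ⟨η, hη, hT⟩ := exists_twisted_unit hσ hv hin w (β := (1 : Fw)) (map_one _)
  simp only [one_mul, map_one] at hT
  set T := η + sF η + sF (sF η)
  have hT0 : T ≠ 0 := fun h0 => by rw [h0, map_zero] at hT; exact zero_ne_one hT
  set z₁ := (η * z + sF (η * z) + sF (sF (η * z))) / T
  obtain ⟨z₀, hz₀⟩ := exists_inclOver_eq hσ (hin w) w.2 (good_over hv w) (x := z₁) (by
    simp only [z₁, T, map_div₀, map_add, sF_cube hσ hin w]
    congr 1 <;> ring)
  have hd : Valued.v (S.inclOver w z₀ - z) ≤ 1 := by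
    have e : z₁ - z = (sF η * (sF z - z) + sF (sF η) * (sF (sF z - z) + (sF z - z))) / T := by
      simp only [z₁]
      rw [div_sub' hT0]
      congr 1
      simp only [T, map_mul, map_sub]
      ring
    rw [hz₀, e, map_div₀, hT, div_one]
    refine (Valuation.map_add _ _ _).trans (max_le ?_ ?_)
    · rw [map_mul, vs]; exact mul_le_one' hη hsz
    · rw [map_mul, vs, vs]
      exact mul_le_one' hη ((Valuation.map_add _ _ _).trans (max_le ((vs _).trans_le hsz) hsz))
  have ha1 : Valued.v (S.inclOver w a - 1) ≤ 1 := by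
    refine (Valuation.map_sub _ _ _).trans (max_le ?_ (map_one _).le)
    rw [← hN, map_mul, map_mul, vs, vs, vs, hβ, one_mul, one_mul]
  refine ⟨z₀, ?_, ?_⟩
  · rw [← vi, map_mul, map_sub, map_one, show (S.inclOver w a - 1) * S.inclOver w z₀ =
      (S.inclOver w a - 1) * z + (S.inclOver w a - 1) * (S.inclOver w z₀ - z) by ring]
    refine (Valuation.map_add _ _ _).trans (max_le hzA ?_)
    rw [map_mul]; exact mul_le_one' ha1 hd
  · rw [hyz, ← mul_sub, map_mul, hu, one_mul, Valuation.map_sub_swap]; exact hd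

variable (Λ : D.LocalOps σ) {l : List (HeightOneSpectrum (𝓞 S.F))}
  (hl : ∀ u ∈ l, Ideal.absNorm u.asIdeal = Ideal.absNorm (S.underK u).asIdeal)

include hv in
theorem galLCos_fixed (x : D.XF v) {g : GLv w.1}
    (hg : x w = (g : LCos (D.levelIdeal S.F) w.1)) :
    galLCos σ w.1 (x (S.nextOver hσ w)) =
      ((gAut sF g : GLv w.1) : LCos (D.levelIdeal S.F) w.1) := by
  have hsub := subsingleton_overK hσ hin
  have e : galLCos σ w.1 (x (S.nextOver hσ w)) =
      ((gAut sF (x w).out : GLv w.1) : LCos (D.levelIdeal S.F) w.1) := by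
    show ((Matrix.GeneralLinearGroup.map (galLoc σ w.1) (x (S.nextOver hσ w)).out : GLv w.1) :
      LCos (D.levelIdeal S.F) w.1) = _
    rw [← out_cast x (Subsingleton.elim (S.nextOver hσ w) w)]
    rfl
  obtain ⟨⟨k, hk⟩, e'⟩ := QuotientGroup.mk_out_eq_mul (locLevel (D.levelIdeal S.F) w.1) g
  rw [e, hg, e', QuotientGroup.eq, map_mul, mul_inv_rev, inv_mul_cancel_right]
  have hs := LT.locLevel_eq_sphSub (D.not_levelIdeal_le (good_over hv w))
  refine (SetLike.ext_iff.mp hs _).mpr ?_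
  replace hk := (SetLike.ext_iff.mp hs _).mp hk
  exact inv_mem (LT.Inert.gAut_mem_sphSub (fixLoc_algebraMap hσ (hin w)) hk)

include hσ hin in
theorem isDiag2_locMat {t : GL (Fin 2) S.K} {δ : GL (Fin 2) S.F} {a : S.K}
    (h : S.IsNormPair σ t δ) (ha : (t : Matrix (Fin 2) (Fin 2) S.K) = Matrix.diagonal ![a, 1]) :
    IsDiag2 (locMat w.1 δ) ∧
      loc w.1 (δ 0 0) * sF (loc w.1 (δ 0 0)) * sF (sF (loc w.1 (δ 0 0))) =
        S.inclOver w (loc v a) ∧
      loc w.1 (δ 1 1) * sF (loc w.1 (δ 1 1)) * sF (sF (loc w.1 (δ 1 1))) = 1 := by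
  have ht1 : S.inclKF a - 1 ≠ 0 := by
    rw [sub_ne_zero, ← map_one S.inclKF]
    exact fun e => torus_ne_one ha h.regular (S.inclKF.injective e)
  have hc := congrArg Units.val (h.commute hσ)
  have hT : (Matrix.GeneralLinearGroup.map S.inclKF.toRingHom t).val =
      !![S.inclKF a, 0; 0, 1] := by
    refine Matrix.ext fun i j => ?_
    show S.inclKF ((t : Matrix (Fin 2) (Fin 2) S.K) i j) = _
    rw [ha]
    fin_cases i <;> fin_cases j <;> simp
  rw [Units.val_mul, Units.val_mul, hT] at hc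
  have h01 := congrFun (congrFun hc 0) 1
  have h10 := congrFun (congrFun hc 1) 0
  simp [Matrix.mul_apply, Fin.sum_univ_two] at h01 h10
  have z01 : δ.val 0 1 = 0 := (mul_eq_zero.mp
    (show (S.inclKF a - 1) * δ.val 0 1 = 0 by linear_combination -h01)).resolve_left ht1
  have z10 : δ.val 1 0 = 0 := (mul_eq_zero.mp
    (show (S.inclKF a - 1) * δ.val 1 0 = 0 by linear_combination h10)).resolve_left ht1
  refine ⟨⟨(congrArg (loc w.1) z01).trans (map_zero _),
    (congrArg (loc w.1) z10).trans (map_zero _)⟩, ?_⟩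
  have hn := congrArg Units.val h.norm
  rw [Units.val_mul, Units.val_mul, hT] at hn
  have n00 := congrFun (congrFun hn 0) 0
  have n11 := congrFun (congrFun hn 1) 1
  simp [Matrix.mul_apply, Fin.sum_univ_two, z01, z10] at n00 n11
  have key : ∀ x : S.F, loc w.1 x * sF (loc w.1 x) * sF (sF (loc w.1 x)) =
      loc w.1 (x * σ x * σ (σ x)) := fun x => by
    show loc w.1 x * fixLocHom (hin w) (loc w.1 x) *
      fixLocHom (hin w) (fixLocHom (hin w) (loc w.1 x)) = _
    rw [fixLocHom_loc, fixLocHom_loc, map_mul, map_mul]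
  refine ⟨?_, ?_⟩
  · rw [key, S.inclOver_loc]; exact congrArg _ n00
  · rw [key, ← map_one (loc w.1)]; exact congrArg _ n11

include hσ hv hin hl in
open Classical in
/-- The weighted orbital sums at a good place with one place over it. -/
theorem weight_inert {t : GL (Fin 2) S.K} {δ : GL (Fin 2) S.F} {a : S.K}
    (h : S.IsNormPair σ t δ) (ha : (t : Matrix (Fin 2) (Fin 2) S.K) = Matrix.diagonal ![a, 1])
    {ΩF : Set (D.XF v)} {ΩK : Set (LCos (D.levelIdeal S.K) v)}
    (hF : IsFundSet (torusAt v t) (torusU v t) Set.univ ΩF)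
    (hK : IsFundSet (torusAt v t) (torusU v t) Set.univ ΩK) :
    ∑ᶠ x ∈ ΩF, Λ.bF l hσ δ v x * (partCos w.1 (x w) : ℂ) =
      3 * ∑ᶠ y ∈ ΩK, Λ.bK l t v y * (partCos v y : ℂ) := by
  have ht := h.regular
  have hsub := subsingleton_overK hσ hin
  have hvw : ¬ D.levelIdeal S.F ≤ w.1.asIdeal := D.not_levelIdeal_le (good_over hv w)
  have hvk : ¬ D.levelIdeal S.K ≤ v.asIdeal := D.not_levelIdeal_le hv
  obtain ⟨hdδ, hN0, hN1⟩ := isDiag2_locMat hσ hin w h ha
  set d : GLv w.1 := locMat w.1 δ with hd_def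
  have ed0 : d.val 0 0 = loc w.1 (δ 0 0) := rfl
  have ed1 : d.val 1 1 = loc w.1 (δ 1 1) := rfl
  rw [← ed0] at hN0
  rw [← ed1] at hN1
  have htT : locMat v t ∈ torusAt v t := by
    rw [mem_torusAt]
  have hdt : IsDiag2 (locMat v t) := isDiag2_of_mem_torusAt ha ht htT
  have hdi : ∀ g : GLv v, IsDiag2 g → IsDiag2 (inclGL w g) := fun g hg =>
    ⟨(congrArg (S.inclOver w) hg.1).trans (map_zero _),
      (congrArg (S.inclOver w) hg.2).trans (map_zero _)⟩
  have hcd : ∀ {R : Type} [Field R] {g g' : GL (Fin 2) R}, IsDiag2 g → IsDiag2 g' →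
      g * g' = g' * g := fun hg hg' => by
    refine Units.ext ?_
    ext i j
    fin_cases i <;> fin_cases j <;>
      simp [Matrix.mul_apply, Fin.sum_univ_two, hg.1, hg.2, hg'.1, hg'.2, mul_comm]
  -- the two kernels
  have hbF : ∀ x : D.XF v, Λ.bF l hσ δ v x =
      if x w = d • galLCos σ w.1 (x (S.nextOver hσ w)) then 1 else 0 := fun x => by
    rw [Setup.Level.LocalOps.bF,
      finprod_eq_single _ w (fun w' hw' => absurd (Subsingleton.elim w' w) hw'),
      opF_inert hσ hv hin w Λ hl, lKer_one]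
  have hbK : ∀ y, Λ.bK l t v y = if y = locMat v t • y then 1 else 0 := fun y => by
    rw [Setup.Level.LocalOps.bK, opK_inert hσ hv hin Λ hl, lKer_one]
  have hsm : ∀ (τ : GLv v) (x : D.XF v), (τ • x) w = inclGL w τ • x w :=
    fun τ x => D.XF_smul_apply v τ x w
  have hinj : Function.Injective fun x : D.XF v => x w := fun x y e => funext fun u => by
    obtain rfl := Subsingleton.elim w u; exact e
  have hinvF : ∀ τ ∈ torusAt v t, ∀ x ∈ (Set.univ : Set (D.XF v)),
      Λ.bF l hσ δ v (τ • x) * (partCos w.1 ((τ • x) w) : ℂ) =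
        Λ.bF l hσ δ v x * (partCos w.1 (x w) : ℂ) := by
    intro τ hτ x _
    have hτd := hdi τ (isDiag2_of_mem_torusAt ha ht hτ)
    obtain ⟨g, hg⟩ := QuotientGroup.mk_surjective (x w)
    have e1 : (τ • x) w = ((inclGL w τ * g : GLv w.1) : LCos (D.levelIdeal S.F) w.1) := by
      rw [hsm, ← hg]; rfl
    rw [hbF, hbF, galLCos_fixed hσ hv hin w _ e1, galLCos_fixed hσ hv hin w x hg.symm, hsm,
      partCos_smul hτd]
    congr 1
    refine if_congr ?_ rfl rfl
    rw [map_mul, gAut_inclGL hσ hin, ← hg, MulAction.Quotient.smul_coe, MulAction.Quotient.smul_coe,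
      MulAction.Quotient.smul_coe, smul_eq_mul, smul_eq_mul, smul_eq_mul, QuotientGroup.eq,
      QuotientGroup.eq, ← mul_assoc d, hcd hdδ hτd, mul_inv_rev]
    simp only [mul_assoc, inv_mul_cancel_left]
  have hinvK : ∀ τ ∈ torusAt v t, ∀ y ∈ (Set.univ : Set (LCos (D.levelIdeal S.K) v)),
      Λ.bK l t v (τ • y) * (partCos v (τ • y) : ℂ) = Λ.bK l t v y * (partCos v y : ℂ) := by
    intro τ hτ y _
    have hτd := isDiag2_of_mem_torusAt ha ht hτ
    rw [hbK, hbK, partCos_smul hτd, ← mul_smul, hcd hdt hτd, mul_smul]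
    simp only [smul_left_cancel_iff]
  have hle := (torusU_le' (u := v) ht).1
  have hF0 := isFundSet_uni (𝔫 := D.levelIdeal S.F) ha ht (S.inclOver w)
    (fun x : D.XF v => x w) hvw (valued_over hσ hv hin w) (fun g x => hsm g x)
  have hK0 := isFundSet_uni (𝔫 := D.levelIdeal S.K) ha ht (RingHom.id (v.adicCompletion S.K))
    (fun y : LCos (D.levelIdeal S.K) v => y) hvk (fun _ => rfl) (fun g y => by
      rw [show Matrix.GeneralLinearGroup.map (RingHom.id (v.adicCompletion S.K)) g = g from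
        Units.ext (Matrix.ext fun i j => rfl)])
  rw [(hF.finsum_eq hle (torusAt_comm' ht) hF0 hinvF).2,
    (hK.finsum_eq hle (torusAt_comm' ht) hK0 hinvK).2]
  -- the values on the representatives
  have hFval : ∀ (x : D.XF v) (y : Fw), x w = (uniMat w.1 y : LCos (D.levelIdeal S.F) w.1) →
      Λ.bF l hσ δ v x = if Valued.v (d.val 0 0) = Valued.v (d.val 1 1) ∧
        Valued.v (d.val 0 0 * sF y - y * d.val 1 1) ≤ Valued.v (d.val 1 1) then 1 else 0 := by
    intro x y hy
    have eg : gAut sF (uniMat w.1 y) = uniMat w.1 (sF y) := by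
      refine Units.ext ?_
      show (uniMat w.1 y).val.map sF = _
      rw [uniMat_val, uniMat_val]
      ext i j
      fin_cases i <;> fin_cases j <;> simp
    rw [hbF, galLCos_fixed hσ hv hin w x hy, eg, hy, MulAction.Quotient.smul_coe, smul_eq_mul]
    exact if_congr (eq_comm.trans (diag_smul_uniMat_eq_iff hvw hdδ y _)) rfl rfl
  set A : v.adicCompletion S.K := loc v a
  have et : (locMat v t).val 0 0 = A ∧ (locMat v t).val 1 1 = 1 := by
    rw [torus_locMat_val ha]; simp [A]
  have hKval : ∀ z : v.adicCompletion S.K,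
      Λ.bK l t v (uniMat v z : LCos (D.levelIdeal S.K) v) =
        if Valued.v A = 1 ∧ Valued.v ((A - 1) * z) ≤ 1 then 1 else 0 := by
    intro z
    rw [hbK, MulAction.Quotient.smul_coe, smul_eq_mul]
    refine if_congr (eq_comm.trans ((diag_smul_uniMat_eq_iff hvk hdt z z).trans ?_)) rfl rfl
    rw [et.1, et.2, map_one, sub_mul, one_mul, mul_one]
  have hd1 : Valued.v (d.val 1 1) = 1 := by
    have h1 := congrArg Valued.v hN1
    rw [map_mul, map_mul, map_one, valued_sF hσ hin w, valued_sF hσ hin w,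
      valued_sF hσ hin w, ← pow_three'] at h1
    exact (pow_eq_one_iff_of_nonneg zero_le (by norm_num)).mp h1
  have hd0 : Valued.v (d.val 0 0) ^ 3 = Valued.v A := by
    have h1 := congrArg Valued.v hN0
    rw [map_mul, map_mul, valued_sF hσ hin w, valued_sF hσ hin w, valued_sF hσ hin w,
      valued_over hσ hv hin w, ← pow_three'] at h1
    exact h1
  by_cases hA : Valued.v A = 1
  swap
  · have z1 : ∀ x ∈ {x : D.XF v | ∃ y, x w = (uniMat w.1 y : LCos (D.levelIdeal S.F) w.1)},
        Λ.bF l hσ δ v x * (partCos w.1 (x w) : ℂ) = 0 := by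
      rintro x ⟨y, hy⟩
      rw [hFval x y hy, if_neg, zero_mul]
      rintro ⟨h1, -⟩
      exact hA (by rw [← hd0, h1, hd1, one_pow])
    have z2 : ∀ y ∈ {y : LCos (D.levelIdeal S.K) v |
        ∃ z, y = (uniMat v z : LCos (D.levelIdeal S.K) v)},
        Λ.bK l t v y * (partCos v y : ℂ) = 0 := by
      rintro y ⟨z, rfl⟩
      rw [hKval, if_neg (fun h => hA h.1), zero_mul]
    rw [finsum_mem_eq_zero_of_forall_eq_zero z1, finsum_mem_eq_zero_of_forall_eq_zero z2, mul_zero]
  have hd0' : Valued.v (d.val 0 0) = 1 :=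
    (pow_eq_one_iff_of_nonneg zero_le (by norm_num)).mp (hd0.trans hA)
  set β : Fw := d.val 0 0 / d.val 1 1
  have hd10 : d.val 1 1 ≠ 0 := hdδ.ne_zero.2
  have hβ : Valued.v β = 1 := by rw [map_div₀, hd0', hd1, div_one]
  obtain ⟨u, hu, hfwd, hbwd⟩ := exists_twist hσ hv hin w hβ (a := A) (by
    simp only [β, map_div₀]
    rw [div_mul_div_comm, div_mul_div_comm, hN0, hN1, div_one])
  have hcond : ∀ y : Fw, Valued.v (d.val 0 0 * sF y - y * d.val 1 1) ≤ Valued.v (d.val 1 1) ↔
      Valued.v (β * sF y - y) ≤ 1 := fun y => by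
    rw [show d.val 0 0 * sF y - y * d.val 1 1 = d.val 1 1 * (β * sF y - y) by
      simp only [β]; field_simp, map_mul, hd1, one_mul]
  -- the bijection
  set CK := {y : LCos (D.levelIdeal S.K) v | ∃ z, y = (uniMat v z : LCos (D.levelIdeal S.K) v) ∧
    Valued.v ((A - 1) * z) ≤ 1}
  set CF := {x : D.XF v | ∃ y, x w = (uniMat w.1 y : LCos (D.levelIdeal S.F) w.1) ∧
    Valued.v (β * sF y - y) ≤ 1}
  have hCF : ∀ x, x ∈ Function.support (fun x => Λ.bF l hσ δ v x * (partCos w.1 (x w) : ℂ)) →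
      (x ∈ {x : D.XF v | ∃ y, x w = (uniMat w.1 y : LCos (D.levelIdeal S.F) w.1)} ↔ x ∈ CF) := by
    intro x hx
    refine ⟨fun ⟨y, hy⟩ => ⟨y, hy, ?_⟩, fun ⟨y, hy, _⟩ => ⟨y, hy⟩⟩
    rw [Function.mem_support, hFval x y hy] at hx
    by_contra hc
    exact hx (by rw [if_neg (fun hh => hc ((hcond y).mp hh.2)), zero_mul])
  have hCK : ∀ q, q ∈ Function.support (fun q => Λ.bK l t v q * (partCos v q : ℂ)) →
      (q ∈ {q : LCos (D.levelIdeal S.K) v | ∃ z, q = (uniMat v z : LCos (D.levelIdeal S.K) v)} ↔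
        q ∈ CK) := by
    intro q hq
    refine ⟨fun ⟨z, hz⟩ => ⟨z, hz, ?_⟩, fun ⟨z, hz, _⟩ => ⟨z, hz⟩⟩
    rw [Function.mem_support, hz, hKval] at hq
    by_contra hc
    exact hq (by rw [if_neg (fun hh => hc hh.2), zero_mul])
  rw [finsum_mem_inter_support_eq' _ _ _ hCF, finsum_mem_inter_support_eq' _ _ _ hCK, mul_finsum_mem]
  let pick : LCos (D.levelIdeal S.K) v → v.adicCompletion S.K := fun q =>
    if hq : ∃ z, q = (uniMat v z : LCos (D.levelIdeal S.K) v) then hq.choose else 0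
  let φ : LCos (D.levelIdeal S.K) v → D.XF v := fun q w' =>
    if e : w' = w then e ▸ (uniMat w.1 (u * S.inclOver w (pick q)) : LCos (D.levelIdeal S.F) w.1)
    else ((1 : GLv w'.1) : LCos (D.levelIdeal S.F) w'.1)
  have hφw : ∀ q, φ q w = (uniMat w.1 (u * S.inclOver w (pick q)) : LCos (D.levelIdeal S.F) w.1) :=
    fun q => by simp [φ]
  have hpick : ∀ z, Valued.v (pick (uniMat v z : LCos (D.levelIdeal S.K) v) - z) ≤ 1 := by
    intro z
    have hq : ∃ z', (uniMat v z : LCos (D.levelIdeal S.K) v) = (uniMat v z' : LCos _ v) := ⟨z, rfl⟩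
    simp only [pick, dif_pos hq]
    exact (uniMat_eq_iff hvk z _).mp hq.choose_spec.symm
  have hclose : ∀ z, φ (uniMat v z : LCos (D.levelIdeal S.K) v) w =
      (uniMat w.1 (u * S.inclOver w z) : LCos (D.levelIdeal S.F) w.1) := fun z => by
    rw [hφw, uniMat_eq_iff hvw, ← mul_sub, map_mul, hu, one_mul, ← map_sub,
      valued_over hσ hv hin w]
    exact hpick z
  symm
  refine finsum_mem_eq_of_bijOn φ ⟨?_, ?_, ?_⟩ ?_
  · rintro _ ⟨z, rfl, hz⟩
    exact ⟨u * S.inclOver w z, hclose z, hfwd z hz⟩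
  · rintro _ ⟨z, rfl, -⟩ _ ⟨z', rfl, -⟩ e
    have e' := congrFun e w
    rw [hclose, hclose, uniMat_eq_iff hvw, ← mul_sub, map_mul, hu, one_mul, ← map_sub,
      valued_over hσ hv hin w] at e'
    exact (uniMat_eq_iff hvk z' z).mpr e'
  · rintro x ⟨y, hy, hy'⟩
    obtain ⟨z, hz, hyz⟩ := hbwd y hy'
    refine ⟨_, ⟨z, rfl, hz⟩, hinj ?_⟩
    show φ _ w = x w
    rw [hclose, hy, uniMat_eq_iff hvw, Valuation.map_sub_swap]
    exact hyz
  · rintro _ ⟨z, rfl, hz⟩
    have e := hclose z
    rw [hKval, if_pos ⟨hA, hz⟩, hFval _ _ e,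
      if_pos ⟨hd0'.trans hd1.symm, (hcond _).mpr (hfwd z hz)⟩, e, partCos_uniMat, partCos_uniMat]
    have hnu : ‖u * S.inclOver w z‖ = ‖z‖ ^ 3 := by
      rw [norm_mul, norm_inclOver_inert hσ hv hin w,
        show ‖u‖ = 1 by rw [FinitePlace.norm_def, hu]; simp, one_mul]
    rw [hnu, show max (1 : ℝ) (‖z‖ ^ 3) = max 1 ‖z‖ ^ 3 by
      rcases le_total ‖z‖ 1 with h1 | h1
      · rw [max_eq_left h1, max_eq_left (pow_le_one₀ (norm_nonneg _) h1), one_pow]
      · rw [max_eq_right h1, max_eq_right (one_le_pow₀ h1)], Real.log_pow]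
    push_cast
    ring

end FermatAgent.LTG

end
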