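import Mathlib
import Fermat.Agent.LT.General.Geom.Local.Torus
import Fermat.Agent.LT.Descent.Geom.Local.KernelRows

set_option autoImplicit false

/-!
# Finiteness of the supports of the local kernels
-/

noncomputable section

open NumberField IsDedekindDomain WithZero
open scoped MatrixGroups

namespace FermatAgent.LTG

open FermatAgent.LT (GLv LCos lKer locMat locLevel IsBddOp bddMod_of_mem_locLevel
  finite_inter_orbits)
open FermatAgent.LT.Inert (IsFundSet)

variable {L : Type*} [Field L] [NumberField L] {t : GL (Fin 2) L} {u : HeightOneSpectrum (𝓞 L)}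
  {𝔫 : Ideal (𝓞 L)} {A : Module.End ℂ (LCos 𝔫 u → ℂ)}

theorem finite_supp_lKer (hA : IsBddOp A)
    (ht : (t : Matrix (Fin 2) (Fin 2) L).trace ^ 2 ≠ 4 * (t : Matrix (Fin 2) (Fin 2) L).det)
    (h𝔫 : 𝔫 ≠ ⊥) {ΩK : Set (LCos 𝔫 u)}
    (hK : IsFundSet (torusAt u t) (torusU u t) Set.univ ΩK) :
    (ΩK ∩ Function.support fun y => lKer A y (locMat u t • y)).Finite := by
  obtain ⟨N, hN⟩ := hA.exists_of_lKer_ne_zero
  obtain ⟨R, hR, hR'⟩ := exists_finite_orbit_reps (u := u) (𝔫 := 𝔫) ht h𝔫 (N + 0)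
  refine (finite_inter_orbits hK (finite_torusU_orbit' ht h𝔫) hR).subset ?_
  rintro y ⟨hy, hy'⟩
  obtain ⟨g, hg, e⟩ := hN _ _ hy'
  refine ⟨hy, ?_⟩
  rw [← QuotientGroup.out_eq' y, MulAction.Quotient.smul_coe, smul_eq_mul,
    QuotientGroup.out_eq'] at e
  have hmem := QuotientGroup.eq.mp e.symm
  obtain ⟨τ, hτ, r, hr, er⟩ := hR' y.out (by
    rw [show y.out⁻¹ * locMat u t * y.out = g * ((y.out * g)⁻¹ * (locMat u t * y.out)) by group]
    exact hg.mul (bddMod_of_mem_locLevel hmem))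
  exact ⟨τ, hτ, r, hr, (QuotientGroup.out_eq' y).symm.trans er⟩

end FermatAgent.LTG

end
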