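import Mathlib
import Fermat.Agent.LT.Descent.Geom.LocalDefs
import Fermat.Agent.LT.Descent.Geom.Local.Places

set_option autoImplicit false

/-!
# The congruence subgroup of a rational level at a place, by valuations
-/

noncomputable section

open NumberField IsDedekindDomain
open scoped MatrixGroups

namespace FermatAgent.LTG

open FermatAgent.LT (GLv locCongr loc)

variable {L : Type*} [Field L] [NumberField L] {v : HeightOneSpectrum (𝓞 L)}

local notation "Ov" => HeightOneSpectrum.adicCompletionIntegers L v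
local notation "Lv" => HeightOneSpectrum.adicCompletion L v

theorem mem_locCongr_span_iff {N : ℕ} (hN : N ≠ 0) (g : GLv v) :
    g ∈ locCongr (Ideal.span {(N : 𝓞 L)}) v ↔
      (∀ i j, Valued.v (g.val i j - (1 : Matrix (Fin 2) (Fin 2) Lv) i j) ≤
        Valued.v (N : Lv)) ∧ Valued.v g.val.det = 1 := by
  set J := (Ideal.span {(N : 𝓞 L)}).map (algebraMap (𝓞 L) Ov) with hJ
  have hJ' : J = Ideal.span {(N : Ov)} := by
    rw [hJ, Ideal.map_span, Set.image_singleton, map_natCast]
  have hcoe : ((N : Ov) : Lv) = (N : Lv) := map_natCast (v.adicCompletionIntegers L).subtype N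
  have hN1 : Valued.v (N : Lv) ≤ 1 := hcoe ▸ (N : Ov).2
  have hNv : (N : Lv) ≠ 0 := by
    rw [← map_natCast (loc v) N]
    exact (map_ne_zero _).mpr (Nat.cast_ne_zero.mpr hN)
  constructor
  · rintro ⟨k, hk, rfl⟩
    refine ⟨fun i j => ?_, ?_⟩
    · have hk' : Matrix.GeneralLinearGroup.map (Ideal.Quotient.mk J) k = 1 :=
        MonoidHom.mem_ker.mp hk
      have h : Ideal.Quotient.mk J (k.val i j) =
          Ideal.Quotient.mk J ((1 : Matrix (Fin 2) (Fin 2) Ov) i j) := by
        refine (Matrix.GeneralLinearGroup.ext_iff _ _ |>.mp hk' i j).trans ?_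
        show (1 : Matrix (Fin 2) (Fin 2) (Ov ⧸ J)) i j = _
        rw [Matrix.one_apply, Matrix.one_apply, apply_ite (Ideal.Quotient.mk J), map_one, map_zero]
      rw [Ideal.Quotient.eq, hJ', Ideal.mem_span_singleton] at h
      obtain ⟨c, hc⟩ := h
      have hc' := congrArg (fun x : Ov => (x : Lv)) hc
      simp only [AddSubgroupClass.coe_sub, MulMemClass.coe_mul, hcoe] at hc'
      rw [show (((1 : Matrix (Fin 2) (Fin 2) Ov) i j : Ov) : Lv) =
          (1 : Matrix (Fin 2) (Fin 2) Lv) i j by
        rw [Matrix.one_apply, Matrix.one_apply]; split <;> rfl] at hc'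
      show Valued.v ((k.val i j : Lv) - _) ≤ _
      rw [hc', map_mul]
      exact mul_le_of_le_one_right' c.2
    · have h : (Matrix.GeneralLinearGroup.map (v.adicCompletionIntegers L).toSubring.subtype k :
          GLv v).val.det = (v.adicCompletionIntegers L).toSubring.subtype k.val.det :=
        (RingHom.map_det (v.adicCompletionIntegers L).toSubring.subtype k.val).symm
      rw [h]
      exact HeightOneSpectrum.adicCompletionIntegers.isUnit_iff_valued_eq_one.mp
        (Matrix.GeneralLinearGroup.det k).isUnit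
  · rintro ⟨he, hd⟩
    have hint : ∀ i j, Valued.v (g.val i j) ≤ 1 := fun i j => by
      rw [← sub_add_cancel (g.val i j) ((1 : Matrix (Fin 2) (Fin 2) Lv) i j)]
      refine (Valuation.map_add _ _ _).trans (max_le ((he i j).trans hN1) ?_)
      rw [Matrix.one_apply]; split <;> simp
    let A : Matrix (Fin 2) (Fin 2) Ov := Matrix.of fun i j => ⟨_, hint i j⟩
    have hA : A.map (v.adicCompletionIntegers L).toSubring.subtype = g.val :=
      Matrix.ext fun i j => rfl
    have hu : IsUnit A.det := by
      refine HeightOneSpectrum.adicCompletionIntegers.isUnit_iff_valued_eq_one.mpr ?_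
      show Valued.v ((v.adicCompletionIntegers L).toSubring.subtype A.det) = 1
      rw [RingHom.map_det, RingHom.mapMatrix_apply, hA, hd]
    refine ⟨((Matrix.isUnit_iff_isUnit_det A).mpr hu).unit, MonoidHom.mem_ker.mpr (Units.ext ?_),
      Units.ext hA⟩
    refine Matrix.ext fun i j => ?_
    show Ideal.Quotient.mk J (A i j) = (1 : Matrix (Fin 2) (Fin 2) (Ov ⧸ J)) i j
    rw [Matrix.one_apply, ← map_one (Ideal.Quotient.mk J), ← map_zero (Ideal.Quotient.mk J),
      ← apply_ite (Ideal.Quotient.mk J), Ideal.Quotient.eq, hJ', Ideal.mem_span_singleton]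
    refine ⟨⟨(g.val i j - (1 : Matrix (Fin 2) (Fin 2) Lv) i j) / (N : Lv), ?_⟩, Subtype.ext ?_⟩
    · rw [HeightOneSpectrum.mem_adicCompletionIntegers, map_div₀]
      exact div_le_one_of_le₀ (he i j) zero_le
    · simp only [AddSubgroupClass.coe_sub, MulMemClass.coe_mul, hcoe, mul_div_cancel₀ _ hNv]
      rw [Matrix.one_apply]
      split <;> rfl

end FermatAgent.LTG

end
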