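import Mathlib
import Fermat.Agent.LT.General.Geom.Local.InertBridge
import Fermat.Agent.LT.General.Geom.Local.LevelCrit
import Fermat.Agent.LT.Descent.Geom.Local.SplitBridge

set_option autoImplicit false

/-!
# The cosets at the places of `F` over a split place of `K`, general input
-/

noncomputable section

open NumberField IsDedekindDomain WithZero
open scoped MatrixGroups

namespace FermatAgent.LTG

open FermatAgent.LT (galPlace GLv LCos locLevel locCongr piInt piLoc valued_piLoc irreducible_piInt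
  cosDist cosDist_mk)
open FermatAgent.LT.Inert (depth)

variable {S : Setup} {D : S.Level} {σ : S.F ≃+* S.F} (hσ : S.IsGalGen σ)
  {v : HeightOneSpectrum (𝓞 S.K)} (w : S.OverK v) (hne : galPlace σ w.1 ≠ w.1)

local notation "M₂" => Matrix (Fin 2) (Fin 2)

include hσ hne

theorem inclGL_surjective : Function.Surjective (inclGL w) := fun g => by
  let e := RingEquiv.ofBijective (S.inclOver w) (bijective_inclOver hσ w hne)
  refine ⟨Matrix.GeneralLinearGroup.map e.symm.toRingHom g,
    Matrix.GeneralLinearGroup.ext fun i j => ?_⟩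
  exact e.apply_symm_apply _

theorem mem_locCongr_incl (g : GLv v) :
    inclGL w g ∈ locCongr (D.levelIdeal S.F) w.1 ↔ g ∈ locCongr (D.levelIdeal S.K) v := by
  have hval := valued_incl_moved hσ w hne
  have hd : ((inclGL w g : GLv w.1) : M₂ (w.1.adicCompletion S.F)).det =
      S.inclOver w (g : M₂ (v.adicCompletion S.K)).det :=
    (RingHom.map_det (S.inclOver w) _).symm
  rw [Setup.Level.levelIdeal, Setup.Level.levelIdeal, mem_locCongr_span_iff D.lvl_ne_zero,
    mem_locCongr_span_iff D.lvl_ne_zero, hd, hval]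
  refine and_congr (forall_congr' fun i => forall_congr' fun j => ?_) Iff.rfl
  rw [← hval ((g : M₂ (v.adicCompletion S.K)) i j - _), map_sub (S.inclOver w),
    ← hval ((D.lvl : ℕ) : v.adicCompletion S.K), map_natCast (S.inclOver w), Matrix.one_apply, Matrix.one_apply,
    apply_ite (S.inclOver w), map_one, map_zero]
  rfl

theorem map_locLevel : (locLevel (D.levelIdeal S.K) v).map (inclGL w) =
    locLevel (D.levelIdeal S.F) w.1 := by
  rw [locLevel, locLevel, Subgroup.map_sup]
  congr 1
  · refine le_antisymm ?_ fun x hx => ?_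
    · rintro _ ⟨g, hg, rfl⟩
      exact (mem_locCongr_incl hσ w hne g).mpr hg
    · obtain ⟨g, rfl⟩ := inclGL_surjective hσ w hne x
      exact ⟨g, (mem_locCongr_incl hσ w hne g).mp hx, rfl⟩
  · refine le_antisymm ?_ fun x hx => ?_
    · rintro _ ⟨g, hg, rfl⟩
      rw [Subgroup.mem_center_iff]
      intro y
      obtain ⟨h, rfl⟩ := inclGL_surjective hσ w hne y
      rw [← map_mul, ← map_mul, Subgroup.mem_center_iff.mp hg]
    · obtain ⟨g, rfl⟩ := inclGL_surjective hσ w hne x
      refine ⟨g, Subgroup.mem_center_iff.mpr fun y => inclGL_injective w ?_, rfl⟩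
      rw [map_mul, map_mul, Subgroup.mem_center_iff.mp hx]

theorem inclLCos_mk (g : GLv v) :
    D.inclLCos w (g : LCos (D.levelIdeal S.K) v) =
      ((inclGL w g : GLv w.1) : LCos (D.levelIdeal S.F) w.1) := by
  obtain ⟨⟨k, hk⟩, e⟩ := QuotientGroup.mk_out_eq_mul (locLevel (D.levelIdeal S.K) v) g
  show ((inclGL w (g : LCos (D.levelIdeal S.K) v).out : GLv w.1) : LCos (D.levelIdeal S.F) w.1) = _
  rw [e, map_mul]
  refine QuotientGroup.eq.mpr ?_
  rw [mul_inv_rev, inv_mul_cancel_right, ← map_locLevel hσ w hne]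
  exact inv_mem ⟨k, hk, rfl⟩

theorem inclLCos_bijective : Function.Bijective (D.inclLCos w) := by
  refine ⟨fun a b h => ?_, fun c => ?_⟩
  · obtain ⟨x, rfl⟩ := QuotientGroup.mk_surjective a
    obtain ⟨y, rfl⟩ := QuotientGroup.mk_surjective b
    rw [inclLCos_mk hσ w hne, inclLCos_mk hσ w hne, QuotientGroup.eq, ← map_inv, ← map_mul,
      ← map_locLevel hσ w hne] at h
    obtain ⟨k, hk, hk'⟩ := h
    rw [QuotientGroup.eq, ← inclGL_injective w hk']
    exact hk
  · obtain ⟨x, rfl⟩ := QuotientGroup.mk_surjective c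
    obtain ⟨g, rfl⟩ := inclGL_surjective hσ w hne x
    exact ⟨(g : LCos (D.levelIdeal S.K) v), inclLCos_mk hσ w hne g⟩

theorem inclLCos_smul (g : GLv v) (a : LCos (D.levelIdeal S.K) v) :
    D.inclLCos w (g • a) = inclGL w g • D.inclLCos w a := by
  obtain ⟨x, rfl⟩ := QuotientGroup.mk_surjective a
  rw [MulAction.Quotient.smul_coe, smul_eq_mul, inclLCos_mk hσ w hne, inclLCos_mk hσ w hne,
    map_mul, MulAction.Quotient.smul_coe, smul_eq_mul]

theorem depth_inclGL_moved (g : GLv v) :
    depth (w.1.adicCompletionIntegers S.F) (inclGL w g) =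
      depth (v.adicCompletionIntegers S.K) g := by
  have hval := valued_incl_moved hσ w hne
  let ι : v.adicCompletionIntegers S.K →+* w.1.adicCompletionIntegers S.F :=
    ((S.inclOver w).comp (v.adicCompletionIntegers S.K).toSubring.subtype).codRestrict
      (w.1.adicCompletionIntegers S.F).toSubring fun x => (hval _).trans_le x.2
  have hu : ∀ x : v.adicCompletionIntegers S.K, IsUnit (ι x) ↔ IsUnit x := fun x => by
    rw [HeightOneSpectrum.adicCompletionIntegers.isUnit_iff_valued_eq_one,
      HeightOneSpectrum.adicCompletionIntegers.isUnit_iff_valued_eq_one]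
    exact iff_of_eq (congrArg (· = 1) (hval x))
  have hπ := irreducible_piInt v
  have hπ' : Irreducible (ι (piInt v)) := by
    refine (IsDiscreteValuationRing.irreducible_iff_uniformizer _).mpr ?_
    have h0 := (IsDiscreteValuationRing.irreducible_iff_uniformizer _).mp (irreducible_piInt w.1)
    rw [h0, Ideal.span_singleton_eq_span_singleton]
    have hv1 : Valued.v ((ι (piInt v) : w.1.adicCompletionIntegers S.F) : w.1.adicCompletion S.F) =
        exp (-1 : ℤ) := (hval _).trans (valued_piLoc v)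
    have hd : ((ι (piInt v) : w.1.adicCompletionIntegers S.F) : w.1.adicCompletion S.F) /
        (piInt w.1 : w.1.adicCompletion S.F) ∈ w.1.adicCompletionIntegers S.F := by
      rw [HeightOneSpectrum.mem_adicCompletionIntegers, map_div₀, hv1]
      exact le_of_eq (by rw [show Valued.v (piInt w.1 : w.1.adicCompletion S.F) = exp (-1 : ℤ) from
        valued_piLoc w.1, div_self exp_ne_zero])
    have hp0 : (piInt w.1 : w.1.adicCompletion S.F) ≠ 0 := (piLoc w.1).ne_zero
    have hunit : IsUnit (⟨_, hd⟩ : w.1.adicCompletionIntegers S.F) := by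
      rw [HeightOneSpectrum.adicCompletionIntegers.isUnit_iff_valued_eq_one]
      show Valued.v (_ / _) = 1
      rw [map_div₀, hv1, show Valued.v (piInt w.1 : w.1.adicCompletion S.F) = exp (-1 : ℤ) from
        valued_piLoc w.1, div_self exp_ne_zero]
    exact ⟨hunit.unit, Subtype.ext (by
      show (piInt w.1 : w.1.adicCompletion S.F) * (_ / _) = _
      rw [mul_div_cancel₀ _ hp0])⟩
  obtain ⟨d, hd⟩ := LT.Inert.exists_hasDepth (O := v.adicCompletionIntegers S.K) hπ g
  rw [LT.Inert.depth_eq hd]
  obtain ⟨c, hc, A, ⟨i, j, hij⟩, hcA, hdA⟩ := hd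
  refine LT.Inert.depth_eq ⟨S.inclOver w c, (map_ne_zero _).mpr hc, A.map ι,
    ⟨i, j, (hu _).mpr hij⟩, ?_, ?_⟩
  · refine Matrix.ext fun a b => ?_
    have h := congrArg (S.inclOver w) (congrFun (congrFun hcA a) b)
    simp only [Matrix.smul_apply, smul_eq_mul, map_mul, LT.Inert.intMat_apply] at h
    exact h
  · rw [← RingHom.mapMatrix_apply, ← RingHom.map_det]
    have hA0 : A.det ≠ 0 := fun h0 => by
      rw [h0, IsDiscreteValuationRing.addVal_zero] at hdA
      exact ENat.natCast_ne_top d hdA.symm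
    obtain ⟨k, u, hk⟩ := IsDiscreteValuationRing.eq_unit_mul_pow_irreducible hA0 hπ
    rw [hk, IsDiscreteValuationRing.addVal_mul, IsDiscreteValuationRing.addVal_pow,
      IsDiscreteValuationRing.addVal_uniformizer hπ,
      IsDiscreteValuationRing.addVal_eq_zero_iff.mpr u.isUnit] at hdA
    rw [hk, map_mul, map_pow, IsDiscreteValuationRing.addVal_mul,
      IsDiscreteValuationRing.addVal_pow, IsDiscreteValuationRing.addVal_uniformizer hπ',
      IsDiscreteValuationRing.addVal_eq_zero_iff.mpr ((hu _).mpr u.isUnit)]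
    exact hdA

theorem cosDist_inclLCos (hv : (S.m : 𝓞 S.K) ∉ v.asIdeal)
    (a b : LCos (D.levelIdeal S.K) v) :
    cosDist (D.inclLCos w a) (D.inclLCos w b) = cosDist a b := by
  obtain ⟨x, rfl⟩ := QuotientGroup.mk_surjective a
  obtain ⟨y, rfl⟩ := QuotientGroup.mk_surjective b
  rw [inclLCos_mk hσ w hne, inclLCos_mk hσ w hne,
    cosDist_mk (D.not_levelIdeal_le (good_over hv w)), cosDist_mk (D.not_levelIdeal_le hv),
    ← map_inv, ← map_mul, depth_inclGL_moved hσ w hne]

theorem natCard_residue_moved :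
    Ideal.absNorm w.1.asIdeal = Ideal.absNorm v.asIdeal := by
  obtain ⟨u, rfl⟩ := w
  rw [← CFT.natCard_quotient_eq_absNorm, ← CFT.natCard_quotient_eq_absNorm]
  refine (Nat.card_eq_of_bijective (Ideal.quotientMap u.asIdeal S.inclInt le_rfl)
    ⟨Ideal.quotientMap_injective' (H := le_rfl) le_rfl, fun o => ?_⟩).symm
  obtain ⟨o, rfl⟩ := Ideal.Quotient.mk_surjective o
  obtain ⟨b, hb⟩ := surjective_residue_moved hσ hne o
  exact ⟨Ideal.Quotient.mk _ b, (Ideal.Quotient.eq.mpr hb).symm⟩

end FermatAgent.LTG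

end
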