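import Mathlib
import Fermat.Agent.LT.General.Geom.Local.SplitBridge
import Fermat.Agent.LT.General.Geom.Local.InertPlace
import Fermat.Agent.LT.General.Geom.Local.Generalities
import Fermat.Agent.LT.General.Geom.Local.OpBdd
import Fermat.Agent.LT.Descent.Geom.Local.SplitPlace

set_option autoImplicit false

/-!
# Matching at a place of `K` with three places of `F` over it, general input
-/

noncomputable section

open NumberField IsDedekindDomain WithZero
open scoped MatrixGroups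

namespace FermatAgent.LTG

open FermatAgent.LT (galPlace galLoc galLoc_coe continuous_galLoc galPlace_injective loc GLv LCos
  locMat locLevel lKer locHecke IsBddOp isBddOp_locHecke cosDist cosDist_smul lKer_locHecke_pow
  BddMod bddMod_of_mem_locLevel finite_inter_orbits orbital_chain)
open FermatAgent.LT.Inert (IsFundSet)

variable {S : Setup} {D : S.Level} {σ : S.F ≃+* S.F} (hσ : S.IsGalGen σ)
  {v : HeightOneSpectrum (𝓞 S.K)}

open Classical in
/-- The operator of `K` matching the one of `F` at a moved place. -/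
def Setup.Level.LocalOps.opSplit (Λ : D.LocalOps σ) (l : List (HeightOneSpectrum (𝓞 S.F)))
    (u : S.OverK v) : Module.End ℂ (LCos (D.levelIdeal S.K) v → ℂ) :=
  Λ.locK v * locHecke _ v ^ l.count u.1

variable (Λ : D.LocalOps σ) (l : List (HeightOneSpectrum (𝓞 S.F)))
  (hl : ∀ w ∈ l, (S.m : 𝓞 S.F) ∉ w.asIdeal)

theorem isBddOp_opSplit (u : S.OverK v) : IsBddOp (Λ.opSplit l u) :=
  (Λ.bddK v).mul (isBddOp_locHecke.pow _)

include hσ in
theorem nextOver_ne {u : S.OverK v} (hne : galPlace σ u.1 ≠ u.1) :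
    galPlace σ (S.nextOver hσ u).1 ≠ (S.nextOver hσ u).1 :=
  fun h => hne (galPlace_injective σ h)

include hl in
open Classical in
theorem count_eq_zero_of_bad (hv : (S.m : 𝓞 S.K) ∈ v.asIdeal) (u : S.OverK v) :
    l.count u.1 = 0 :=
  List.count_eq_zero.mpr fun h => hl _ h ((bad_over_iff u).mpr hv)

include hσ hl

open Classical in
theorem lKer_opSplit (u : S.OverK v) (hne : galPlace σ u.1 ≠ u.1)
    (a b : LCos (D.levelIdeal S.K) v) :
    lKer (Λ.opF l u.1) (D.inclLCos u a) (D.inclLCos u b) = lKer (Λ.opSplit l u) a b := by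
  rw [Setup.Level.LocalOps.opF, Setup.Level.LocalOps.opSplit]
  by_cases hv : (S.m : 𝓞 S.K) ∈ v.asIdeal
  · rw [count_eq_zero_of_bad l hl hv u, pow_zero, mul_one, pow_zero, mul_one,
      Λ.moved v u hv hne]
  · rw [Λ.goodF _ (good_over hv u), one_mul, Λ.goodK v hv, one_mul,
      lKer_locHecke_pow (D.not_levelIdeal_le (good_over hv u)),
      lKer_locHecke_pow (D.not_levelIdeal_le hv), cosDist_inclLCos hσ u hne hv,
      natCard_residue_moved hσ u hne]

omit hσ in
theorem lKer_opSplit_smul (u : S.OverK v) (_hne : galPlace σ u.1 ≠ u.1) (g : GLv v)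
    (a b : LCos (D.levelIdeal S.K) v) :
    lKer (Λ.opSplit l u) (g • a) (g • b) = lKer (Λ.opSplit l u) a b := by
  classical
  rw [Setup.Level.LocalOps.opSplit]
  by_cases hv : (S.m : 𝓞 S.K) ∈ v.asIdeal
  · rw [count_eq_zero_of_bad l hl hv u, pow_zero, mul_one, Λ.smulK]
  · rw [Λ.goodK v hv, one_mul, lKer_locHecke_pow (D.not_levelIdeal_le hv),
      lKer_locHecke_pow (D.not_levelIdeal_le hv), cosDist_smul (D.not_levelIdeal_le hv)]

omit hl in
theorem nextOver_nextOver_nextOver (u : S.OverK v) :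
    S.nextOver hσ (S.nextOver hσ (S.nextOver hσ u)) = u :=
  Subtype.ext (galPlace_cube hσ u.1)

omit hl in
theorem three_overK (u : S.OverK v) (hne : galPlace σ u.1 ≠ u.1) (x : S.OverK v) :
    (S.nextOver hσ u ≠ u ∧ S.nextOver hσ (S.nextOver hσ u) ≠ u ∧
      S.nextOver hσ (S.nextOver hσ u) ≠ S.nextOver hσ u) ∧
    (x = u ∨ x = S.nextOver hσ u ∨ x = S.nextOver hσ (S.nextOver hσ u)) := by
  obtain ⟨h2, h3⟩ := galPlace_moved hσ hne
  refine ⟨⟨fun h => hne (congrArg Subtype.val h), fun h => h2 (congrArg Subtype.val h),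
    fun h => h3 (congrArg Subtype.val h)⟩, ?_⟩
  rcases galPlace_orbit hσ (x.2.trans u.2.symm) with h | h | h
  · exact Or.inl (Subtype.ext h)
  · exact Or.inr (Or.inl (Subtype.ext h))
  · exact Or.inr (Or.inr (Subtype.ext h))

omit hl in
open Classical in
theorem count_over_eq (u : S.OverK v) (hne : galPlace σ u.1 ≠ u.1) :
    l.count u.1 + l.count (S.nextOver hσ u).1 + l.count (S.nextOver hσ (S.nextOver hσ u)).1 =
      (l.map S.underK).count v := by
  set u₁ := S.nextOver hσ u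
  set u₂ := S.nextOver hσ u₁
  induction l with
  | nil => rfl
  | cons w l ih =>
    obtain ⟨d01, d02, d12⟩ := (three_overK hσ u hne u).1
    have d01' : u₁.1 ≠ u.1 := fun h => d01 (Subtype.ext h)
    have d02' : u₂.1 ≠ u.1 := fun h => d02 (Subtype.ext h)
    have d12' : u₂.1 ≠ u₁.1 := fun h => d12 (Subtype.ext h)
    by_cases hwv : S.underK w = v
    · rw [List.map_cons, hwv, List.count_cons_self, ← ih]
      rcases (three_overK hσ u hne ⟨w, hwv⟩).2 with h | h | h
      all_goals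
        rw [show w = (⟨w, hwv⟩ : S.OverK v).1 from rfl, h, List.count_cons, List.count_cons,
          List.count_cons]
      · simp [d01'.symm, d02'.symm]; omega
      · simp [u₁, d01', d12'.symm]; omega
      · simp [u₁, u₂, d02', d12']; omega
    · rw [List.map_cons, List.count_cons_of_ne hwv,
        List.count_cons_of_ne fun h : w = u.1 => hwv (by rw [h]; exact u.2),
        List.count_cons_of_ne fun h : w = u₁.1 => hwv (by rw [h]; exact u₁.2),
        List.count_cons_of_ne fun h : w = u₂.1 => hwv (by rw [h]; exact u₂.2), ih]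

open Classical in
theorem opSplit_prod (u : S.OverK v) (hne : galPlace σ u.1 ≠ u.1) :
    Λ.opSplit l u * Λ.opSplit l (S.nextOver hσ u) *
        Λ.opSplit l (S.nextOver hσ (S.nextOver hσ u)) = Λ.opK l v := by
  rw [Setup.Level.LocalOps.opSplit, Setup.Level.LocalOps.opSplit, Setup.Level.LocalOps.opSplit,
    Setup.Level.LocalOps.opK, ← count_over_eq hσ l u hne]
  by_cases hv : (S.m : 𝓞 S.K) ∈ v.asIdeal
  · simp only [count_eq_zero_of_bad l hl hv, add_zero, pow_zero, mul_one, Λ.idemK]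
  · simp only [Λ.goodK v hv, one_mul, pow_add]

omit hl in
theorem galLoc_incl (u : S.OverK v) (x : v.adicCompletion S.K) :
    galLoc σ u.1 (S.inclOver (S.nextOver hσ u) x) = S.inclOver u x := by
  have h : (fun x => galLoc σ u.1 (S.inclOver (S.nextOver hσ u) x)) =
      fun x => S.inclOver u x := by
    refine DenseRange.equalizer (HeightOneSpectrum.denseRange_algebraMap (K := S.K) v)
      ((continuous_galLoc σ u.1).comp (S.continuous_inclOver _)) (S.continuous_inclOver u)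
      (funext fun k => ?_)
    show galLoc σ u.1 (S.inclOver (S.nextOver hσ u) (loc v k)) = S.inclOver u (loc v k)
    rw [S.inclOver_loc, S.inclOver_loc]
    show galLoc σ u.1 (loc (galPlace σ u.1) _) = _
    rw [galLoc_coe, hσ.2]
  exact congrFun h x

omit hl in
theorem galLCos_incl (u : S.OverK v) (hne : galPlace σ u.1 ≠ u.1)
    (y : LCos (D.levelIdeal S.K) v) :
    galLCos σ u.1 (D.inclLCos (S.nextOver hσ u) y) = D.inclLCos u y := by
  obtain ⟨g, rfl⟩ := QuotientGroup.mk_surjective y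
  rw [inclLCos_mk hσ _ (nextOver_ne hσ hne), inclLCos_mk hσ u hne]
  obtain ⟨⟨k, hk⟩, e⟩ := QuotientGroup.mk_out_eq_mul (locLevel (D.levelIdeal S.F) (S.nextOver hσ u).1)
    (inclGL (S.nextOver hσ u) g)
  rw [← map_locLevel hσ _ (nextOver_ne hσ hne)] at hk
  obtain ⟨k₀, hk₀, rfl⟩ := hk
  have hgal : ∀ x : GLv v, Matrix.GeneralLinearGroup.map (galLoc σ u.1)
      (inclGL (S.nextOver hσ u) x) = inclGL u x := fun x =>
    Matrix.GeneralLinearGroup.ext fun i j => galLoc_incl hσ u _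
  show ((Matrix.GeneralLinearGroup.map (galLoc σ u.1) _ : GLv u.1) : LCos (D.levelIdeal S.F) u.1) = _
  erw [e]
  erw [map_mul, hgal, hgal]
  refine QuotientGroup.eq.mpr ?_
  rw [mul_inv_rev, inv_mul_cancel_right, ← map_locLevel hσ u hne]
  exact inv_mem ⟨k₀, hk₀, rfl⟩

variable {t : GL (Fin 2) S.K} {δ : GL (Fin 2) S.F}

omit hl in
theorem exists_pull (u : S.OverK v) (hne : galPlace σ u.1 ≠ u.1) (h : S.IsNormPair σ t δ) :
    ∃ d₀ d₁ d₂ : GLv v, inclGL u d₀ = locMat u.1 δ ∧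
      inclGL (S.nextOver hσ u) d₁ = locMat (S.nextOver hσ u).1 δ ∧
      inclGL (S.nextOver hσ (S.nextOver hσ u)) d₂ =
        locMat (S.nextOver hσ (S.nextOver hσ u)).1 δ ∧
      d₀ * d₁ * d₂ = locMat v t ∧
      d₀ ∈ torusAt v t ∧ d₁ ∈ torusAt v t ∧ d₂ ∈ torusAt v t := by
  set u₁ := S.nextOver hσ u
  set u₂ := S.nextOver hσ u₁
  have hne₁ := nextOver_ne hσ hne
  have hne₂ := nextOver_ne hσ hne₁
  obtain ⟨d₀, h₀⟩ := inclGL_surjective hσ u hne (locMat u.1 δ)
  obtain ⟨d₁, h₁⟩ := inclGL_surjective hσ u₁ hne₁ (locMat u₁.1 δ)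
  obtain ⟨d₂, h₂⟩ := inclGL_surjective hσ u₂ hne₂ (locMat u₂.1 δ)
  set G := Matrix.GeneralLinearGroup.map (n := Fin 2) σ.toRingHom
  have hgal : ∀ (x : S.OverK v) (a : GLv v), Matrix.GeneralLinearGroup.map (galLoc σ x.1)
      (inclGL (S.nextOver hσ x) a) = inclGL x a := fun x a =>
    Matrix.GeneralLinearGroup.ext fun i j => galLoc_incl hσ x _
  have hcoe : ∀ (x : S.OverK v) (a : GL (Fin 2) S.F), Matrix.GeneralLinearGroup.map (galLoc σ x.1)
      (locMat (S.nextOver hσ x).1 a) = locMat x.1 (G a) := fun x a =>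
    Matrix.GeneralLinearGroup.ext fun i j => galLoc_coe σ x.1 _
  have hd₁ : inclGL u d₁ = locMat u.1 (G δ) := by rw [← hgal u d₁, h₁, hcoe]
  have hd₂ : inclGL u d₂ = locMat u.1 (G (G δ)) := by
    rw [← hgal u d₂, ← hgal u₁ d₂, h₂, hcoe, hcoe]
  refine ⟨d₀, d₁, d₂, h₀, h₁, h₂, ?_, ?_⟩
  · apply inclGL_injective u
    rw [map_mul, map_mul, h₀, hd₁, hd₂, ← map_mul, ← map_mul, h.norm, ← inclGL_locMat]
  · have hc := h.commute hσ
    have key : ∀ (x : S.OverK v) (d : GLv v), inclGL x d = locMat x.1 δ → d ∈ torusAt v t := by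
      intro x d hd
      rw [mem_torusAt]
      apply inclGL_injective x
      rw [map_mul, map_mul, hd, inclGL_locMat, ← map_mul, ← map_mul, hc]
    exact ⟨key u d₀ h₀, key u₁ d₁ h₁, key u₂ d₂ h₂⟩

-- one large bookkeeping proof
/-- Orbital sums with a weight in one slot agree at a place with moved places over it. -/
theorem split_matching_weight (h : S.IsNormPair σ t δ) (u : S.OverK v)
    (hne : galPlace σ u.1 ≠ u.1) (f : LCos (D.levelIdeal S.F) u.1 → ℂ)
    (hf : ∀ g ∈ torusAt v t, ∀ x : D.XF v, f ((g • x) u) = f (x u))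
    {ΩF : Set (D.XF v)} {ΩK : Set (LCos (D.levelIdeal S.K) v)}
    (hF : IsFundSet (torusAt v t) (torusU v t) Set.univ ΩF)
    (hK : IsFundSet (torusAt v t) (torusU v t) Set.univ ΩK) :
    (ΩF ∩ Function.support fun x => Λ.bF l hσ δ v x * f (x u)).Finite ∧
      ∑ᶠ x ∈ ΩF, Λ.bF l hσ δ v x * f (x u) =
        ∑ᶠ y ∈ ΩK, Λ.bK l t v y * f (D.inclLCos u y) := by
  classical
  have ht := h.regular
  set u₁ := S.nextOver hσ u with hu₁
  set u₂ := S.nextOver hσ u₁ with hu₂
  have hne₁ := nextOver_ne hσ hne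
  have hne₂ := nextOver_ne hσ hne₁
  obtain ⟨⟨d01, d02, d12⟩, -⟩ := three_overK hσ u hne u
  obtain ⟨d₀, d₁, d₂, h₀, h₁, h₂, hprod, m₀, m₁, m₂⟩ := exists_pull hσ u hne h
  let e₀ : (LCos (D.levelIdeal S.K) v) ≃ _ := Equiv.ofBijective _ (inclLCos_bijective hσ u hne)
  let e₁ : (LCos (D.levelIdeal S.K) v) ≃ _ := Equiv.ofBijective _ (inclLCos_bijective hσ u₁ hne₁)
  let e₂ : (LCos (D.levelIdeal S.K) v) ≃ _ := Equiv.ofBijective _ (inclLCos_bijective hσ u₂ hne₂)
  let π : D.XF v → (LCos (D.levelIdeal S.K) v) × (LCos (D.levelIdeal S.K) v) × (LCos (D.levelIdeal S.K) v) := fun x => (e₀.symm (x u), e₁.symm (x u₁), e₂.symm (x u₂))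
  have hπinj : Function.Injective π := by
    intro x y hxy
    simp only [π, Prod.mk.injEq, EmbeddingLike.apply_eq_iff_eq] at hxy
    funext w
    rcases (three_overK hσ u hne w).2 with rfl | rfl | rfl
    exacts [hxy.1, hxy.2.1, hxy.2.2]
  have hπsurj : Function.Surjective π := fun p =>
    ⟨Function.update (Function.update (fun w => D.inclLCos w p.2.2) u (e₀ p.1)) u₁ (e₁ p.2.1), by
      refine Prod.ext ?_ (Prod.ext ?_ ?_)
      · show e₀.symm _ = _
        rw [Function.update_of_ne d01.symm, Function.update_self, Equiv.symm_apply_apply]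
      · show e₁.symm _ = _
        rw [Function.update_self, Equiv.symm_apply_apply]
      · show e₂.symm _ = _
        rw [Function.update_of_ne d12, Function.update_of_ne d02]
        show e₂.symm (e₂ p.2.2) = p.2.2
        exact e₂.symm_apply_apply _⟩
  have hπsmul : ∀ (g : GLv v) (x : D.XF v), π (g • x) = g • π x := by
    intro g x
    refine Prod.ext ?_ (Prod.ext ?_ ?_)
    · show e₀.symm ((g • x) u) = g • e₀.symm (x u)
      rw [Equiv.symm_apply_eq, D.XF_smul_apply v]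
      rw [show e₀ (g • e₀.symm (x u)) = D.inclLCos u (g • e₀.symm (x u)) from rfl,
        inclLCos_smul hσ u hne, show D.inclLCos u (e₀.symm (x u)) = x u from e₀.apply_symm_apply _]
      rfl
    · show e₁.symm ((g • x) u₁) = g • e₁.symm (x u₁)
      rw [Equiv.symm_apply_eq, D.XF_smul_apply v]
      rw [show e₁ (g • e₁.symm (x u₁)) = D.inclLCos u₁ (g • e₁.symm (x u₁)) from rfl,
        inclLCos_smul hσ u₁ hne₁,
        show D.inclLCos u₁ (e₁.symm (x u₁)) = x u₁ from e₁.apply_symm_apply _]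
      rfl
    · show e₂.symm ((g • x) u₂) = g • e₂.symm (x u₂)
      rw [Equiv.symm_apply_eq, D.XF_smul_apply v]
      rw [show e₂ (g • e₂.symm (x u₂)) = D.inclLCos u₂ (g • e₂.symm (x u₂)) from rfl,
        inclLCos_smul hσ u₂ hne₂,
        show D.inclLCos u₂ (e₂.symm (x u₂)) = x u₂ from e₂.apply_symm_apply _]
      rfl
  have hFπ := hF.map (MonoidHom.id (GLv v)) hπinj hπsmul
  rw [Set.image_univ, hπsurj.range_eq, Subgroup.map_id, Subgroup.map_id] at hFπ
  set k₀ := lKer (Λ.opSplit l u)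
  set k₁ := lKer (Λ.opSplit l u₁)
  set k₂ := lKer (Λ.opSplit l u₂)
  have hb : ∀ u, IsBddOp (Λ.opSplit l (v := v) u) := isBddOp_opSplit Λ l
  have hbne : D.levelIdeal S.K ≠ ⊥ := D.levelIdeal_ne_bot S.K
  have hcomm : ∀ {d : GLv v}, d ∈ torusAt v t → ∀ τ ∈ torusAt v t, d * τ = τ * d :=
    fun hd τ hτ => torusAt_comm' ht _ hd τ hτ
  -- the factor at each place
  have hfac : ∀ (w : S.OverK v) (hw : galPlace σ w.1 ≠ w.1) (d : GLv v),
      inclGL w d = locMat w.1 δ → ∀ (x : D.XF v) (a b : (LCos (D.levelIdeal S.K) v)), D.inclLCos w a = x w →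
      D.inclLCos (S.nextOver hσ w) b = x (S.nextOver hσ w) →
      lKer (Λ.opF l w.1) (x w) (locMat w.1 δ • galLCos σ w.1 (x (S.nextOver hσ w))) =
        lKer (Λ.opSplit l w) a (d • b) := by
    intro w hw d hd x a b ha hb
    rw [← ha, ← hb, galLCos_incl hσ w hw, ← hd, ← inclLCos_smul hσ w hw,
      lKer_opSplit hσ Λ l hl w hw]
  have hval : ∀ x : D.XF v, Λ.bF l hσ δ v x =
      k₀ (π x).1 (d₀ • (π x).2.1) * k₁ (π x).2.1 (d₁ • (π x).2.2) * k₂ (π x).2.2 (d₂ • (π x).1) := by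
    intro x
    rw [Setup.Level.LocalOps.bF, finprod_eq_prod_of_mulSupport_subset _ (s := {u, u₁, u₂}) (fun w _ => by
        rcases (three_overK hσ u hne w).2 with h | h | h <;> simp [h, u₁, u₂]),
      Finset.prod_insert (by simp [u₁, u₂, d01.symm, d02.symm]), Finset.prod_insert (by simp [u₁, u₂, d12.symm]),
      Finset.prod_singleton, ← mul_assoc]
    refine congrArg₂ (· * ·) (congrArg₂ (· * ·) ?_ ?_) ?_
    · exact hfac u hne d₀ h₀ x _ _ (e₀.apply_symm_apply _) (e₁.apply_symm_apply _)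
    · exact hfac u₁ hne₁ d₁ h₁ x _ _ (e₁.apply_symm_apply _) (e₂.apply_symm_apply _)
    · refine hfac u₂ hne₂ d₂ h₂ x _ _ (e₂.apply_symm_apply _) ?_
      rw [show S.nextOver hσ u₂ = u from nextOver_nextOver_nextOver hσ u]
      exact e₀.apply_symm_apply _
  -- the weight
  set f' : (LCos (D.levelIdeal S.K) v) → ℂ := fun a => f (D.inclLCos u a)
  have hf' : ∀ τ ∈ torusAt v t, ∀ a, f' (τ • a) = f' a := by
    intro τ hτ a
    obtain ⟨x, hx⟩ := hπsurj (a, a, a)
    have hxu : x u = D.inclLCos u a := by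
      rw [show a = e₀.symm (x u) from (congrArg Prod.fst hx).symm]
      exact (e₀.apply_symm_apply _).symm
    show f (D.inclLCos u (τ • a)) = f (D.inclLCos u a)
    rw [inclLCos_smul hσ u hne, ← hxu, ← hf τ hτ x, D.XF_smul_apply v]
    rfl
  -- finiteness
  have hfin : {y ∈ ΩK | ∃ a b, k₀ y a ≠ 0 ∧ k₁ a b ≠ 0 ∧ k₂ b (locMat v t • y) ≠ 0}.Finite := by
    obtain ⟨N₀, hN₀⟩ := (hb u).exists_of_lKer_ne_zero
    obtain ⟨N₁, hN₁⟩ := (hb u₁).exists_of_lKer_ne_zero
    obtain ⟨N₂, hN₂⟩ := (hb u₂).exists_of_lKer_ne_zero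
    have hstep : ∀ {M N : ℤ} (y g h : GLv v) (a : (LCos (D.levelIdeal S.K) v)), BddMod M g → BddMod N h →
        a = ((y * g : GLv v) : (LCos (D.levelIdeal S.K) v)) →
          ∃ g', BddMod (M + 0 + N) g' ∧ ((a.out * h : GLv v) : (LCos (D.levelIdeal S.K) v)) = ((y * g' : GLv v) : (LCos (D.levelIdeal S.K) v)) := by
      intro M N y g h a hg hh ha
      obtain ⟨⟨k, hk⟩, e⟩ := QuotientGroup.mk_out_eq_mul (locLevel (D.levelIdeal S.K) v) (y * g)
      refine ⟨g * k * h, (hg.mul (bddMod_of_mem_locLevel hk)).mul hh, ?_⟩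
      rw [ha, e]
      simp only [mul_assoc]
    obtain ⟨R, hR, hR'⟩ := exists_finite_orbit_reps (u := v) ht hbne (N₀ + 0 + N₁ + 0 + N₂ + 0)
    refine (finite_inter_orbits hK (finite_torusU_orbit' ht hbne) hR).subset ?_
    rintro y ⟨hy, a, b, ha, hb', hc⟩
    obtain ⟨g, hg, ea⟩ := hN₀ _ _ ha
    obtain ⟨h₁', hh₁, eb⟩ := hN₁ _ _ hb'
    obtain ⟨h₂', hh₂, ec⟩ := hN₂ _ _ hc
    obtain ⟨g₁, hg₁, e₁'⟩ := hstep y.out g h₁' a hg hh₁ ea
    obtain ⟨g₂, hg₂, e₂'⟩ := hstep y.out g₁ h₂' b hg₁ hh₂ (eb.trans e₁')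
    have e := ec.trans e₂'
    rw [← QuotientGroup.out_eq' y, MulAction.Quotient.smul_coe, smul_eq_mul,
      QuotientGroup.out_eq'] at e
    have hmem := QuotientGroup.eq.mp e.symm
    refine ⟨hy, ?_⟩
    obtain ⟨τ, hτ, r, hr, er⟩ := hR' y.out (by
      rw [show y.out⁻¹ * locMat v t * y.out =
        g₂ * ((y.out * g₂)⁻¹ * (locMat v t * y.out)) by group]
      exact hg₂.mul (bddMod_of_mem_locLevel hmem))
    exact ⟨τ, hτ, r, hr, (QuotientGroup.out_eq' y).symm.trans er⟩
  obtain ⟨hfinF, hsum⟩ := orbital_chain (torusU_le' ht).1 (torusAt_comm' ht)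
    (fun g hg y hy => mem_torusU_of_smul_eq hg hy) (k₀ := k₀) (k₁ := k₁) (k₂ := k₂)
    (lKer_opSplit_smul Λ l hl u hne) (lKer_opSplit_smul Λ l hl u₁ hne₁)
    (lKer_opSplit_smul Λ l hl u₂ hne₂)
    (fun a => (hb u).finite_row hbne a) (fun a => (hb u₁).finite_row hbne a)
    (d₀ := d₀) (d₁ := d₁) (d₂ := d₂) (hcomm m₀) (hcomm m₁) (hcomm m₂) hprod hf' hK hFπ hfin
  have hweight : ∀ x : D.XF v, f' (π x).1 = f (x u) := fun x =>
    congrArg f (e₀.apply_symm_apply _)
  constructor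
  · refine (hfinF.preimage hπinj.injOn).subset ?_
    rintro x ⟨hx, hx'⟩
    refine ⟨⟨x, hx, rfl⟩, ?_⟩
    rw [Function.mem_support] at hx' ⊢
    rwa [hweight, ← hval]
  · rw [finsum_mem_image hπinj.injOn] at hsum
    refine ((finsum_mem_congr rfl fun x _ => ?_).trans hsum).trans
      (finsum_mem_congr rfl fun y _ => ?_)
    · rw [hval, hweight]
    rw [Setup.Level.LocalOps.bK, ← opSplit_prod hσ Λ l hl u hne, (hb u).lKer_mul₃ (hb u₁) hbne]

/-- The orbital sums agree at a place with moved places over it. -/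
theorem local_matching_split (h : S.IsNormPair σ t δ)
    (hmv : ∀ w : S.OverK v, galPlace σ w.1 ≠ w.1)
    {ΩF : Set (D.XF v)} {ΩK : Set (LCos (D.levelIdeal S.K) v)}
    (hF : IsFundSet (torusAt v t) (torusU v t) Set.univ ΩF)
    (hK : IsFundSet (torusAt v t) (torusU v t) Set.univ ΩK) :
    (ΩF ∩ Function.support (Λ.bF l hσ δ v)).Finite ∧
      ∑ᶠ x ∈ ΩF, Λ.bF l hσ δ v x = ∑ᶠ y ∈ ΩK, Λ.bK l t v y := by
  obtain ⟨u⟩ := exists_overK_place S v
  simpa using split_matching_weight hσ Λ l hl h u (hmv u) (fun _ => 1) (fun _ _ _ => rfl) hF hK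

end FermatAgent.LTG

end
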