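import Mathlib
import Fermat.Agent.LT.General.Geom.Local.AlmostAll
import Fermat.Agent.LT.General.Geom.Local.FixedWeight
import Fermat.Agent.LT.General.Geom.Local.SplitPlace

set_option autoImplicit false

/-!
# The orbital sums at a place of `K`, general input
-/

noncomputable section

open NumberField IsDedekindDomain WithZero Filter
open scoped MatrixGroups

namespace FermatAgent.LTG

open FermatAgent.LT (galPlace GLv LCos locMat locLevel lKer locHecke partCos cosDist cosDist_smul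
  lKer_locHecke_pow isBddOp_locHecke IsBddOp)
open FermatAgent.LT.Inert (IsFundSet)

/-- Letters are good places of degree one over `K`. -/
abbrev Setup.GoodWord (S : Setup) (l : List (HeightOneSpectrum (𝓞 S.F))) : Prop :=
  ∀ w ∈ l, (S.m : 𝓞 S.F) ∉ w.asIdeal ∧
    Ideal.absNorm w.asIdeal = Ideal.absNorm (S.underK w).asIdeal

variable {S : Setup} {D : S.Level} {σ : S.F ≃+* S.F} (hσ : S.IsGalGen σ) {t : GL (Fin 2) S.K}
  (ht : (t : Matrix (Fin 2) (Fin 2) S.K).trace ^ 2 ≠ 4 * (t : Matrix (Fin 2) (Fin 2) S.K).det)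

/-! ### Generalities -/

include hσ in
theorem stabilizer_le_torusU (v : HeightOneSpectrum (𝓞 S.K)) (y : LCos (D.levelIdeal S.K) v)
    (x : D.XF v) : ∀ g ∈ torusAt v t, (g • y = y ∨ g • x = x) → g ∈ torusU v t := by
  rintro g hg (h | h)
  · exact mem_torusU_of_smul_eq hg h
  · exact mem_torusU_of_smul_eq_F hσ hg h

variable (Λ : D.LocalOps σ) (l : List (HeightOneSpectrum (𝓞 S.F))) (hl : S.GoodWord l)

include hl in
open Classical in
theorem count_eq_zero_bad {v : HeightOneSpectrum (𝓞 S.K)} (hv : (S.m : 𝓞 S.K) ∈ v.asIdeal) :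
    (l.map S.underK).count v = 0 :=
  List.count_eq_zero.mpr fun h => by
    obtain ⟨w, hw, rfl⟩ := List.mem_map.mp h
    exact (hl w hw).1 ((S.natCast_mem_underK w _).mp hv)

include hl in
theorem bF_eq_base {v : HeightOneSpectrum (𝓞 S.K)} (hv : (S.m : 𝓞 S.K) ∈ v.asIdeal)
    (δ : GL (Fin 2) S.F) (x : D.XF v) : Λ.bF l hσ δ v x = Λ.baseF hσ δ v x := by
  classical
  refine finprod_congr fun w => ?_
  rw [Setup.Level.LocalOps.opF, count_eq_zero_of_bad l (fun u hu => (hl u hu).1) hv w, pow_zero,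
    mul_one]

include hl in
theorem bK_eq_base {v : HeightOneSpectrum (𝓞 S.K)} (hv : (S.m : 𝓞 S.K) ∈ v.asIdeal)
    (t : GL (Fin 2) S.K) (y : LCos (D.levelIdeal S.K) v) :
    Λ.bK l t v y = Λ.baseK t v y := by
  classical
  rw [Setup.Level.LocalOps.bK, Setup.Level.LocalOps.baseK, Setup.Level.LocalOps.opK,
    count_eq_zero_bad l hl hv, pow_zero, mul_one]

include hl in
theorem lKer_opF_smul (w : HeightOneSpectrum (𝓞 S.F)) (g : GLv w)
    (a b : LCos (D.levelIdeal S.F) w) :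
    lKer (Λ.opF l w) (g • a) (g • b) = lKer (Λ.opF l w) a b := by
  classical
  rw [Setup.Level.LocalOps.opF]
  by_cases hw : (S.m : 𝓞 S.F) ∈ w.asIdeal
  · rw [List.count_eq_zero.mpr fun h => (hl w h).1 hw, pow_zero, mul_one, Λ.smulF]
  · rw [Λ.goodF w hw, one_mul, lKer_locHecke_pow (D.not_levelIdeal_le hw),
      lKer_locHecke_pow (D.not_levelIdeal_le hw), cosDist_smul (D.not_levelIdeal_le hw)]

include hl in
theorem lKer_opK_smul (v : HeightOneSpectrum (𝓞 S.K)) (g : GLv v)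
    (a b : LCos (D.levelIdeal S.K) v) :
    lKer (Λ.opK l v) (g • a) (g • b) = lKer (Λ.opK l v) a b := by
  classical
  rw [Setup.Level.LocalOps.opK]
  by_cases hv : (S.m : 𝓞 S.K) ∈ v.asIdeal
  · rw [count_eq_zero_bad l hl hv, pow_zero, mul_one, Λ.smulK]
  · rw [Λ.goodK v hv, one_mul, lKer_locHecke_pow (D.not_levelIdeal_le hv),
      lKer_locHecke_pow (D.not_levelIdeal_le hv), cosDist_smul (D.not_levelIdeal_le hv)]

include ht in
theorem finite_supp_bK (v : HeightOneSpectrum (𝓞 S.K)) {ΩK : Set (LCos (D.levelIdeal S.K) v)}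
    (hK : IsFundSet (torusAt v t) (torusU v t) Set.univ ΩK) :
    (ΩK ∩ Function.support (Λ.bK l t v)).Finite := by
  classical
  exact finite_supp_lKer ((Λ.bddK v).mul (isBddOp_locHecke.pow _)) ht
    (D.levelIdeal_ne_bot S.K) hK

/-! ### Matching -/

variable {hσ} (M : Setup.Level.FixedMatch Λ hσ)

open Classical in
/-- The local constant. -/
def cfac (v : HeightOneSpectrum (𝓞 S.K)) : ℂ :=
  if (S.m : 𝓞 S.K) ∈ v.asIdeal ∧ S.IsFixed v then M.cst v else 1

/-- The constant of the geometric identity at the finite places. -/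
def cfin : ℂ := ∏ᶠ v, cfac Λ M v

theorem cfac_of_good {v : HeightOneSpectrum (𝓞 S.K)} (hv : (S.m : 𝓞 S.K) ∉ v.asIdeal) :
    cfac Λ M v = 1 := if_neg fun h => hv h.1

theorem cfac_of_moved {v : HeightOneSpectrum (𝓞 S.K)}
    (hmv : ∀ w : S.OverK v, galPlace σ w.1 ≠ w.1) : cfac Λ M v = 1 :=
  if_neg fun h => by
    obtain ⟨w⟩ := exists_overK_place S v
    exact hmv w ((isFixed_iff hσ).mp h.2 w)

theorem finite_mulSupport_cfac : (Function.mulSupport (cfac Λ M)).Finite :=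
  (S.badPlaces S.K).finite_toSet.subset fun v hv => by
    by_contra h
    exact hv (cfac_of_good Λ M fun hm => h ((S.mem_badPlaces_iff _ v).mpr hm))

include hl in
/-- The orbital sums of `F` and of `K` agree up to the constant. -/
theorem local_matching {δ : GL (Fin 2) S.F} (h : S.IsNormPair σ t δ)
    (v : HeightOneSpectrum (𝓞 S.K)) {ΩF : Set (D.XF v)} {ΩK : Set (LCos (D.levelIdeal S.K) v)}
    (hF : IsFundSet (torusAt v t) (torusU v t) Set.univ ΩF)
    (hK : IsFundSet (torusAt v t) (torusU v t) Set.univ ΩK) :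
    (ΩF ∩ Function.support (Λ.bF l hσ δ v)).Finite ∧
      ∑ᶠ x ∈ ΩF, Λ.bF l hσ δ v x = cfac Λ M v * ∑ᶠ y ∈ ΩK, Λ.bK l t v y := by
  rcases moved_or_fixed hσ v with hmv | ⟨hin, -⟩
  · rw [cfac_of_moved Λ M hmv, one_mul]
    exact local_matching_split hσ Λ l (fun u hu => (hl u hu).1) h hmv hF hK
  by_cases hv : (S.m : 𝓞 S.K) ∈ v.asIdeal
  · have hfx := (isFixed_iff hσ).mpr hin
    rw [cfac, if_pos ⟨hv, hfx⟩, funext (bF_eq_base hσ Λ l hl hv δ),
      funext (bK_eq_base Λ l hl hv t)]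
    exact M.orbital v hv hfx t δ h ΩF ΩK hF hK
  · rw [cfac_of_good Λ M hv, one_mul]
    exact local_matching_inert hσ hv hin Λ (fun u hu => (hl u hu).2) h hF hK

include hl in
/-- At a split place a slot may carry an invariant weight. -/
theorem local_matching_slot {δ : GL (Fin 2) S.F} (h : S.IsNormPair σ t δ)
    (v : HeightOneSpectrum (𝓞 S.K)) (w : S.OverK v) (hw : galPlace σ w.1 ≠ w.1)
    (f : LCos (D.levelIdeal S.F) w.1 → ℂ)
    (hf : ∀ g ∈ torusAt v t, ∀ x : D.XF v, f ((g • x) w) = f (x w))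
    {ΩF : Set (D.XF v)} {ΩK : Set (LCos (D.levelIdeal S.K) v)}
    (hF : IsFundSet (torusAt v t) (torusU v t) Set.univ ΩF)
    (hK : IsFundSet (torusAt v t) (torusU v t) Set.univ ΩK) :
    ∑ᶠ x ∈ ΩF, Λ.bF l hσ δ v x * f (x w) =
      ∑ᶠ y ∈ ΩK, Λ.bK l t v y * f (D.inclLCos w y) :=
  (split_matching_weight hσ Λ l (fun u hu => (hl u hu).1) h w hw f hf hF hK).2

include hl in
/-- At a fixed place the weighted sums agree up to three times the constant. -/
theorem local_matching_fixed {δ : GL (Fin 2) S.F} {a : S.K} (h : S.IsNormPair σ t δ)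
    (ha : (t : Matrix (Fin 2) (Fin 2) S.K) = Matrix.diagonal ![a, 1])
    (v : HeightOneSpectrum (𝓞 S.K)) (w : S.OverK v) (hw : galPlace σ w.1 = w.1)
    {ΩF : Set (D.XF v)} {ΩK : Set (LCos (D.levelIdeal S.K) v)}
    (hF : IsFundSet (torusAt v t) (torusU v t) Set.univ ΩF)
    (hK : IsFundSet (torusAt v t) (torusU v t) Set.univ ΩK) :
    ∑ᶠ x ∈ ΩF, Λ.bF l hσ δ v x * (partCos w.1 (x w) : ℂ) =
      3 * cfac Λ M v * ∑ᶠ y ∈ ΩK, Λ.bK l t v y * (partCos v y : ℂ) := by
  have hin : ∀ u : S.OverK v, galPlace σ u.1 = u.1 := fun u => by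
    rw [show u = w from Subtype.ext (eq_of_galPlace_fixed hσ hw (u.2.trans w.2.symm))]
    exact hw
  by_cases hv : (S.m : 𝓞 S.K) ∈ v.asIdeal
  · have hfx := (isFixed_iff hσ).mpr hin
    rw [cfac, if_pos ⟨hv, hfx⟩, funext (bF_eq_base hσ Λ l hl hv δ),
      funext (bK_eq_base Λ l hl hv t)]
    exact M.weight v hv hfx t δ a h ha w ΩF ΩK hF hK
  · rw [cfac_of_good Λ M hv, mul_one]
    exact weight_inert hσ hv hin w Λ (fun u hu => (hl u hu).2) h ha hF hK

end FermatAgent.LTG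

end
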